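import Fermat.Agent.FU.Act

set_option autoImplicit false
set_option linter.unusedSectionVars false

/-! # (FU) -/

namespace Fermat.Agent.FU

open Fermat.Agent.ECRed Fermat.Agent.ECRed.Frey Fermat.Agent.Carayol OrdFn WeierstrassCurve
  WeierstrassCurve.Affine WeierstrassCurve.Affine.Point
open scoped Pointwise

lemma coe_pow_apply (σ : Qb ≃ₐ[ℚ] Qb) (j : ℕ) (z : Qb) :
    ((σ : Qb ≃+* Qb) ^ j) z = (σ ^ j) z := by
  induction j generalizing z with
  | zero => rfl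
  | succ j ih =>
    rw [pow_succ, pow_succ]
    exact ih (σ z)

variable {P : FreyPackage} [DecidableEq Qb] {A : ValuationSubring Qb}

lemma plane {N : Submodule (ZMod P.p) (Tp P Qb)} (hN1 : N ≠ ⊥) (hN2 : N ≠ ⊤) {R : Tp P Qb}
    (hR : R ∉ N) (S : Tp P Qb) : ∃ c : ZMod P.p, S - c • R ∈ N := by
  have h1 := finrank_line hN1 hN2
  have hlt : N < N ⊔ Submodule.span (ZMod P.p) {R} := by
    refine lt_of_le_of_ne le_sup_left ?_
    intro h
    apply hR
    rw [h]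
    exact Submodule.mem_sup_right (Submodule.mem_span_singleton_self R)
  have h2 := Submodule.finrank_lt_finrank_of_lt hlt
  have h3 : N ⊔ Submodule.span (ZMod P.p) {R} = ⊤ := by
    apply Submodule.eq_top_of_finrank_eq
    have h4 := Submodule.finrank_le (N ⊔ Submodule.span (ZMod P.p) {R})
    rw [finrank_Tp] at h4 ⊢
    omega
  have h5 : S ∈ N ⊔ Submodule.span (ZMod P.p) {R} := by rw [h3]; trivial
  obtain ⟨y, hy, w, hw, rfl⟩ := Submodule.mem_sup.mp h5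
  obtain ⟨c, rfl⟩ := Submodule.mem_span_singleton.mp hw
  exact ⟨c, by rw [add_sub_cancel_right]; exact hy⟩

theorem FU_ord (P : FreyPackage) {A : ValuationSubring Qb} (hA : A.LiesOverPrime P.p)
    (habc : (P.p : ℤ) ∣ P.a * P.b * P.c) {b : Qb} (hb : b ≠ 0)
    (hbp : ∀ σ ∈ A.inertiaSubgroupIn ℚ, σ (b ^ P.p) = b ^ P.p)
    (hfix : ∀ σ ∈ A.inertiaSubgroupIn ℚ,
      (∀ R : ((P.freyCurve : Affine ℚ)⁄Qb).Point, P.p • R = 0 → σ • R = R) → σ b = b) :
    ∃ n : ℤ, (ordFnAt A P.pp hA).ord b = n := by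
  have hA' : ((P.p : ℕ) : Qb) ∈ A.nonunits := hA
  have hv : (ordFnAt A P.pp hA).Eq 1 ((P.p : ℕ) : Qb) := ordAt_q A P.pp hA'
  have hpK : ((P.p : ℕ) : Qb) ≠ 0 := hv.1
  have hpR : (P.p : ℝ) ≠ 0 := by exact_mod_cast P.hp0
  have hpZ : Prime (P.p : ℤ) := Nat.prime_iff_prime_int.mp P.pp
  -- `p v(b) ∈ ℤ`
  obtain ⟨a, ha⟩ := ord_int P.pp hA (pow_ne_zero P.p hb) hbp
  rw [ord_pow hb] at ha
  by_cases hpa : (P.p : ℤ) ∣ a
  · obtain ⟨n, rfl⟩ := hpa
    refine ⟨n, ?_⟩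
    push_cast at ha
    exact mul_left_cancel₀ hpR ha
  exfalso
  haveI : NeZero P.p := ⟨P.hp0⟩
  haveI : NeZero ((P.p : ℕ) : Qb) := ⟨hpK⟩
  obtain ⟨ζ, hζ⟩ := HasEnoughRootsOfUnity.exists_primitiveRoot Qb P.p
  have hidx := UU_index (P := P) hA' habc hζ
  haveI := UU_finiteIndex (P := P) hA' ζ
  -- some `σ` moves `b`
  have hσex : ∃ σ ∈ A.inertiaSubgroupIn ℚ, σ ∈ UU (P := P) hA' ζ ∧ σ b ≠ b := by
    by_contra hcon
    push Not at hcon
    obtain ⟨n, hn, m, hm⟩ := ord_rational P.pp hA (UU (P := P) hA' ζ) hidx hb hcon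
    have h1 : (n : ℝ) * a = P.p * m := by rw [← ha, ← hm]; ring
    have h2 : (n : ℤ) * a = P.p * m := by exact_mod_cast h1
    rcases hpZ.dvd_or_dvd ⟨m, h2⟩ with h | h
    · exact hn (by exact_mod_cast h)
    · exact hpa h
  obtain ⟨σ, hσI, hσU, hσb⟩ := hσex
  have hσC := ((mem_UU hA').mp hσU).1
  have hσζ := ((mem_UU hA').mp hσU).2
  set ξ := σ b / b with hξdef
  have hσbξ : σ b = ξ * b := by rw [hξdef, div_mul_cancel₀ _ hb]
  have hξp : ξ ^ P.p = 1 := by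
    rw [hξdef, div_pow, ← map_pow, hbp σ hσI, div_self (pow_ne_zero _ hb)]
  have hξ1 : ξ ≠ 1 := by
    intro h
    rw [hξdef, div_eq_one_iff_eq hb] at h
    exact hσb h
  have hξ : IsPrimitiveRoot ξ P.p := by
    have h1 := IsPrimitiveRoot.orderOf ξ
    rwa [orderOf_eq_prime hξp hξ1] at h1
  have hξ0 : ξ ≠ 0 := hξ.ne_zero P.hp0
  have hτξ : ∀ τ : Qb ≃ₐ[ℚ] Qb, τ ζ = ζ → τ ξ = ξ := by
    intro τ hτ
    obtain ⟨i, -, hi⟩ := hζ.eq_pow_of_pow_eq_one hξp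
    rw [← hi, map_pow, hτ]
  have hσξ := hτξ σ hσζ
  -- the point `R`
  have hRex : ∃ R : Tp P Qb, σ • R ≠ R := by
    by_contra hcon
    push Not at hcon
    apply hσb
    apply hfix σ hσI
    intro R hR
    have hRmem : R ∈ Submodule.torsionBy ℤ ((P.freyCurve : Affine ℚ)⁄Qb).Point (P.p : ℤ) := by
      rw [Submodule.mem_torsionBy_iff, natCast_zsmul]; exact hR
    exact congrArg Subtype.val (hcon ⟨R, hRmem⟩)
  obtain ⟨R, hσR⟩ := hRex
  have hRC : R ∉ CC (P := P) hA' := fun h => hσR (hσC R h)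
  have hstar : ∀ τ ∈ A.inertiaSubgroupIn ℚ, τ • R - R ∈ CC (P := P) hA' := by
    intro τ hτ
    rw [mem_CC] at hRC ⊢
    exact frey_star_p hA' hτ (tor R) hRC
  set Q : Tp P Qb := σ • R - R with hQdef
  have hQC : Q ∈ CC (P := P) hA' := hstar σ hσI
  have hQ0 : Q ≠ 0 := sub_ne_zero.mpr hσR
  have hσQ : σ • Q = Q := hσC Q hQC
  have hCbot : CC (P := P) hA' ≠ ⊥ := by
    intro h
    rw [h, Submodule.mem_bot] at hQC
    exact hQ0 hQC
  have hCtop := CC_ne_top (P := P) hA' habc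
  have hpow : ∀ j : ℕ, (σ ^ j) • R = R + (j : ZMod P.p) • Q := by
    intro j
    induction j with
    | zero => rw [pow_zero, t_one, Nat.cast_zero, zero_smul, add_zero]
    | succ j ih =>
      have e : σ • R = R + Q := by rw [hQdef]; abel
      rw [pow_succ', t_mul, ih, t_add, zsm, hσQ, e, Nat.cast_succ, add_smul, one_smul]
      abel
  have hspan : ∀ S ∈ CC (P := P) hA', ∃ l : ZMod P.p, l • Q = S := by
    intro S hS
    obtain ⟨⟨n0, hn0⟩, hne, hsp⟩ := finrank_eq_one_iff'.mp (finrank_line hCbot hCtop)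
    obtain ⟨c, hc⟩ := hsp ⟨Q, hQC⟩
    obtain ⟨d, hd⟩ := hsp ⟨S, hS⟩
    have hc' : c • n0 = Q := congrArg Subtype.val hc
    have hd' : d • n0 = S := congrArg Subtype.val hd
    have hc0 : c ≠ 0 := by
      rintro rfl
      rw [zero_smul] at hc'
      exact hQ0 hc'.symm
    refine ⟨d * c⁻¹, ?_⟩
    rw [← hc', smul_smul, mul_assoc, inv_mul_cancel₀ hc0, mul_one, hd']
  have hσpow_b : ∀ l : ℕ, (σ ^ l) b = ξ ^ l * b := by
    intro l
    induction l with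
    | zero => simp
    | succ l ih =>
      have e : (σ ^ (l + 1)) b = σ ((σ ^ l) b) := by rw [pow_succ']; rfl
      rw [e, ih, map_mul, map_pow, hσξ, hσbξ, pow_succ]; ring
  -- the action of `τ`
  have hτ : ∀ τ ∈ A.inertiaSubgroupIn ℚ, τ ∈ UU (P := P) hA' ζ → ∃ l : ℕ, τ b = ξ ^ l * b ∧
      ∀ j : ℕ, τ • ((σ ^ j) • R) = (σ ^ l) • ((σ ^ j) • R) := by
    intro τ hτI hτU
    have hτC := ((mem_UU hA').mp hτU).1
    obtain ⟨l, hl⟩ := hspan _ (hstar τ hτI)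
    have hcast : ((l.val : ℕ) : ZMod P.p) = l := ZMod.natCast_zmod_val l
    have hτR : τ • R = (σ ^ l.val) • R := by
      rw [hpow, hcast, hl]; abel
    have hσlC : ∀ x ∈ CC (P := P) hA', (σ ^ l.val) • x = x :=
      (H2 (CC (P := P) hA')).pow_mem hσC l.val
    refine ⟨l.val, ?_, ?_⟩
    · have hρ : (τ⁻¹ * σ ^ l.val) b = b := by
        apply hfix _ ((A.inertiaSubgroupIn ℚ).mul_mem ((A.inertiaSubgroupIn ℚ).inv_mem hτI)
          ((A.inertiaSubgroupIn ℚ).pow_mem hσI _))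
        intro S hS
        have hSmem : S ∈ Submodule.torsionBy ℤ ((P.freyCurve : Affine ℚ)⁄Qb).Point
            (P.p : ℤ) := by
          rw [Submodule.mem_torsionBy_iff, natCast_zsmul]; exact hS
        have hρC : ∀ x ∈ CC (P := P) hA', (τ⁻¹ * σ ^ l.val) • x = x :=
          (H2 (CC (P := P) hA')).mul_mem ((H2 (CC (P := P) hA')).inv_mem hτC) hσlC
        have hρR : (τ⁻¹ * σ ^ l.val) • R = R := by
          rw [t_mul, ← hτR, t_inv_smul]
        obtain ⟨c, hc⟩ := plane hCbot hCtop hRC ⟨S, hSmem⟩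
        have h1 := hρC _ hc
        rw [t_sub, zsm, hρR] at h1
        have h2 := sub_left_inj.mp h1
        exact congrArg Subtype.val h2
      have h3 : (τ⁻¹ * σ ^ l.val) b = τ.symm ((σ ^ l.val) b) := rfl
      rw [h3, AlgEquiv.symm_apply_eq] at hρ
      rw [← hρ, hσpow_b]
    · intro j
      rw [hpow j, t_add, t_add, zsm, zsm, hτC Q hQC, hσlC Q hQC, hτR]
  -- the function `z`
  have hRE : ¬ (kum P (K := Qb)).InE1 (ordFnAt A P.pp hA')
      (R : ((P.freyCurve : Affine ℚ)⁄Qb).Point) := hRC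
  have hQ0' : (Q : ((P.freyCurve : Affine ℚ)⁄Qb).Point) ≠ 0 := fun h => hQ0 (Subtype.ext h)
  have hQE : (kum P (K := Qb)).InE1 (ordFnAt A P.pp hA')
      (Q : ((P.freyCurve : Affine ℚ)⁄Qb).Point) := hQC
  obtain ⟨r, c, hc1, hc2⟩ := frey_diff hA' habc (tor R) hRE hQ0' hQE
  set κ := (kum P (K := Qb)).translate (algebraMap ℚ Qb r) with hκ
  have hN : ∀ (τ : Qb ≃ₐ[ℚ] Qb) (S : Tp P Qb),
      κ.N ((τ • S : Tp P Qb) : ((P.freyCurve : Affine ℚ)⁄Qb).Point) =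
        τ (κ.N (S : ((P.freyCurve : Affine ℚ)⁄Qb).Point)) := by
    intro τ S
    rw [coe_smul]
    exact N_translate_smul hκ τ _
  set π : Qb := ((P.p : ℕ) : Qb) ^ c with hπ
  have hπ0 : π ≠ 0 := zpow_ne_zero _ hpK
  have hπord : (ordFnAt A P.pp hA).Eq c π := by
    refine ⟨hπ0, ?_⟩
    rw [hπ, ord_zpow hpK, hv.2, mul_one]
  have hτπ : ∀ τ : Qb ≃ₐ[ℚ] Qb, τ π = π := by
    intro τ
    rw [hπ, map_zpow₀, map_natCast]
  set z : Qb := κ.N (R : ((P.freyCurve : Affine ℚ)⁄Qb).Point) / π with hz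
  have hτz : ∀ τ : Qb ≃ₐ[ℚ] Qb, τ z =
      κ.N ((τ • R : Tp P Qb) : ((P.freyCurve : Affine ℚ)⁄Qb).Point) / π := by
    intro τ
    rw [hz, map_div₀, hτπ, hN]
  have hz0 : (ordFnAt A P.pp hA).Ge 0 z := by
    have := (hc1.mul hπord.inv).ge
    rw [add_neg_cancel, ← div_eq_mul_inv] at this
    exact this
  set s : Qb ≃+* Qb := (σ : Qb ≃+* Qb) with hs
  have hspow : ∀ (j : ℕ) (x : Qb), (s ^ j) x = (σ ^ j) x := fun j x => coe_pow_apply σ j x
  have hsz : (s ^ P.p) z = z := by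
    have hpz : ((P.p : ℕ) : ZMod P.p) = 0 := CharP.cast_eq_zero _ _
    have hσp : (σ ^ P.p) • R = R := by rw [hpow, hpz, zero_smul, add_zero]
    rw [hspow, hτz, hσp]
  have hH : ∀ i ∈ Finset.range P.p, eig P.p s ξ z i ≠ 0 → ∃ n : ℕ, ¬ P.p ∣ n ∧ ∃ m : ℤ,
      n * ((ordFnAt A P.pp hA).ord (eig P.p s ξ z i) - i * (ordFnAt A P.pp hA).ord b) = m := by
    intro i _ hi0
    have hbi : b ^ i ≠ 0 := pow_ne_zero _ hb
    obtain ⟨n, hn, m, hm⟩ := ord_rational P.pp hA (UU (P := P) hA' ζ) hidx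
      (x := eig P.p s ξ z i / b ^ i) (div_ne_zero hi0 hbi) (by
      intro τ hτI hτU
      obtain ⟨l, hl1, hl2⟩ := hτ τ hτI hτU
      have hτζ := ((mem_UU hA').mp hτU).2
      have hsl : ∀ (k : ℕ), (σ ^ k) ξ = ξ := by
        intro k
        induction k with
        | zero => rfl
        | succ k ih =>
          have e : (σ ^ (k + 1)) ξ = σ ((σ ^ k) ξ) := by rw [pow_succ']; rfl
          rw [e, ih, hσξ]
      have h1 : τ (eig P.p s ξ z i) = (σ ^ l) (eig P.p s ξ z i) := by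
        unfold eig
        rw [map_mul, map_mul, map_inv₀, map_inv₀, map_natCast, map_natCast, map_sum, map_sum]
        congr 1
        refine Finset.sum_congr rfl fun j _ => ?_
        rw [map_mul, map_mul, map_pow, map_pow, map_pow, map_pow, map_inv₀, map_inv₀,
          hτξ τ hτζ, hsl l, hspow]
        congr 1
        rw [hτz]
        rw [map_div₀, map_div₀, hτπ, hτπ, ← hN, ← hN, hl2 j]
      have h2 : ∀ k : ℕ, (σ ^ k) (eig P.p s ξ z i) = (ξ ^ i) ^ k * eig P.p s ξ z i := by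
        intro k
        induction k with
        | zero => rw [pow_zero, pow_zero, one_mul]; rfl
        | succ k ih =>
          have e : (σ ^ (k + 1)) (eig P.p s ξ z i) = σ ((σ ^ k) (eig P.p s ξ z i)) := by
            rw [pow_succ']; rfl
          have h3 : σ (eig P.p s ξ z i) = ξ ^ i * eig P.p s ξ z i :=
            sig_eig s hξ hσξ hsz i
          rw [e, ih, map_mul, map_pow, map_pow, hσξ, h3, pow_succ]; ring
      rw [map_div₀, map_pow, hl1, h1, h2, mul_pow, ← pow_mul, ← pow_mul, mul_comm l i]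
      rw [mul_div_mul_left _ _ (pow_ne_zero _ hξ0)])
    refine ⟨n, hn, m, ?_⟩
    rw [← hm, div_eq_mul_inv, ord_mul hi0 (inv_ne_zero hbi), ord_inv _ hbi, ord_pow hb]
    ring
  have hgt := gt_of_eig s P.pp P.hp_odd hv hξ hσξ hsz hz0 (β := (ordFnAt A P.pp hA).ord b) ha
    hpa hH
  -- the difference
  have e1 : s z = κ.N ((R : ((P.freyCurve : Affine ℚ)⁄Qb).Point) + Q) / π := by
    have h1 : s z = σ z := rfl
    have h2 : σ • R = R + Q := by rw [hQdef]; abel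
    rw [h1, hτz, h2]
    rfl
  have e2 : s.symm z = κ.N ((R : ((P.freyCurve : Affine ℚ)⁄Qb).Point) - Q) / π := by
    have h1 : s.symm z = (σ⁻¹) z := rfl
    have h2 : σ⁻¹ • R = R - Q := by
      have h3 : σ • (R - Q) = R := by
        rw [t_sub, hσQ, hQdef]; abel
      rw [← h3, t_inv_smul, h3]
    rw [h1, hτz, h2]
    rfl
  have hdiff := (hc2.mul hπord.inv).neg
  have e3 : -((κ.N ((R : ((P.freyCurve : Affine ℚ)⁄Qb).Point) - Q) -
      κ.N ((R : ((P.freyCurve : Affine ℚ)⁄Qb).Point) + Q)) * π⁻¹) = s z - s.symm z := by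
    rw [e1, e2]; ring
  rw [e3] at hdiff
  have h5 := (gt_iff hdiff.1).mp hgt
  rw [hdiff.2] at h5
  have h6 := s_bound A P.pp P.hp_odd hA' (P.freyCurve : Affine ℚ) (intCoeff_p hA') frey_Δ_ne
    (integral_p hA') (frey_hT hA') hQ0' (tor Q) hQE
  have hp1 : (0 : ℝ) < (P.p : ℝ) - 1 := by
    have : (1 : ℝ) < P.p := by exact_mod_cast P.pp.one_lt
    linarith
  rw [div_lt_iff₀ hp1] at h5
  nlinarith

/-- **(FU)** -/
theorem FU (P : FreyPackage) {A : ValuationSubring Qb} (hA : A.LiesOverPrime P.p)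
    (habc : (P.p : ℤ) ∣ P.a * P.b * P.c) {b : Qb} (hb : b ≠ 0)
    (hbp : ∀ σ ∈ A.inertiaSubgroupIn ℚ, σ (b ^ P.p) = b ^ P.p)
    (hfix : ∀ σ ∈ A.inertiaSubgroupIn ℚ,
      (∀ R : ((P.freyCurve : Affine ℚ)⁄Qb).Point, P.p • R = 0 → σ • R = R) → σ b = b) :
    ∃ l : ℤ, A.valuation (b * (P.p : Qb) ^ l) = 1 := by
  obtain ⟨n, hn⟩ := FU_ord P hA habc hb hbp hfix
  have hA' : ((P.p : ℕ) : Qb) ∈ A.nonunits := hA
  have hv : (ordFnAt A P.pp hA).Eq 1 ((P.p : ℕ) : Qb) := ordAt_q A P.pp hA'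
  refine ⟨-n, ?_⟩
  have h0 : (ordFnAt A P.pp hA).Eq 0 (b * (P.p : Qb) ^ (-n)) := by
    refine ⟨mul_ne_zero hb (zpow_ne_zero _ hv.1), ?_⟩
    rw [ord_mul hb (zpow_ne_zero _ hv.1), ord_zpow hv.1, hv.2, hn]
    push_cast; ring
  refine le_antisymm ?_ ?_
  · rw [ValuationSubring.valuation_le_one_iff]
    exact (ordFnAt_ge A P.pp hA _).mp h0.ge
  · have h1 := h0.not_gt
    rw [ordFnAt_gt, ValuationSubring.mem_nonunits_iff, not_lt] at h1
    exact h1

end Fermat.Agent.FU
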