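import Fermat.Agent.FU.Grp

set_option autoImplicit false
set_option linter.unusedSectionVars false

/-! # The action of inertia on the kernel of reduction -/

namespace Fermat.Agent.FU

open Fermat.Agent.ECRed Fermat.Agent.ECRed.Frey Fermat.Agent.Carayol OrdFn WeierstrassCurve
  WeierstrassCurve.Affine WeierstrassCurve.Affine.Point
open scoped Pointwise

variable {P : FreyPackage} [DecidableEq Qb] {A : ValuationSubring Qb}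

/-- roots of unity are permuted by `(p-1)`-torsion -/
lemma pow_root {p : ℕ} (hp : p.Prime) {ζ : Qb} (hζ : IsPrimitiveRoot ζ p) (τ : Qb ≃ₐ[ℚ] Qb) :
    (τ ^ (p - 1)) ζ = ζ := by
  haveI := Fact.mk hp
  haveI : NeZero p := ⟨hp.ne_zero⟩
  obtain ⟨i, hi, hτ⟩ := hζ.eq_pow_of_pow_eq_one (ξ := τ ζ) (by
    rw [← map_pow, hζ.pow_eq_one, map_one])
  have h1 : ∀ k : ℕ, (τ ^ k) ζ = ζ ^ (i ^ k) := by
    intro k
    induction k with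
    | zero => simp
    | succ k ih =>
      have e : (τ ^ (k + 1)) ζ = τ ((τ ^ k) ζ) := by rw [pow_succ']; rfl
      rw [e, ih, map_pow, ← hτ, ← pow_mul, pow_succ, mul_comm]
  rw [h1]
  have hi0 : (i : ZMod p) ≠ 0 := by
    intro h0
    rw [ZMod.natCast_eq_zero_iff] at h0
    have h2 : i = 0 := Nat.eq_zero_of_dvd_of_lt h0 hi
    rw [h2, pow_zero] at hτ
    have h3 : ζ = 1 := τ.injective (by rw [← hτ, map_one])
    have h4 := hζ.eq_orderOf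
    rw [h3, orderOf_one] at h4
    exact hp.one_lt.ne' h4
  have h2 : ((i ^ (p - 1) : ℕ) : ZMod p) = (1 : ℕ) := by
    push_cast
    exact ZMod.pow_card_sub_one_eq_one hi0
  rw [ZMod.natCast_eq_natCast_iff] at h2
  have h3 : ζ ^ (i ^ (p - 1)) = ζ ^ 1 := by
    have h4 : i ^ (p - 1) % p = 1 % p := h2
    rw [← pow_mod_orderOf ζ (i ^ (p - 1)), ← pow_mod_orderOf ζ 1, ← hζ.eq_orderOf, h4]
  rw [h3, pow_one]

lemma subOne_add (τ : Qb ≃ₐ[ℚ] Qb) (x : Tp P Qb) : τ • x = x + subOne τ x := by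
  rw [subOne_apply]; abel

lemma zsm (τ : Qb ≃ₐ[ℚ] Qb) (c : ZMod P.p) (x : Tp P Qb) : τ • (c • x) = c • (τ • x) := by
  rw [subOne_add, subOne_add τ x, map_smul, smul_add]

/-- inertia preserves the kernel of reduction -/
lemma inE1_smul (hA : ((P.p : ℕ) : Qb) ∈ A.nonunits) {τ : Qb ≃ₐ[ℚ] Qb}
    (hτ : τ ∈ A.inertiaSubgroupIn ℚ) {Q : ((P.freyCurve : Affine ℚ)⁄Qb).Point}
    (hQ : (kum P (K := Qb)).InE1 (ordFnAt A P.pp hA) Q) :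
    (kum P (K := Qb)).InE1 (ordFnAt A P.pp hA) (τ • Q) := by
  by_cases hQ0 : Q = 0
  · rw [hQ0, gal_smul_zero]; exact KummerLine.inE1_zero
  have hτQ0 : τ • Q ≠ 0 := smul_ne_zero' τ hQ0
  rw [KummerLine.inE1_iff hQ0, not_ge_iff] at hQ
  rw [KummerLine.inE1_iff hτQ0, not_ge_iff]
  have e : (kum P (K := Qb)).N (τ • Q) = τ ((kum P (K := Qb)).N Q) := N_smul τ Q
  rw [e]
  refine ⟨?_, ?_⟩
  · rw [Ne, EmbeddingLike.map_eq_zero_iff]; exact hQ.1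
  · rw [ordAt_smul A P.pp hA (inertia_decomp hτ)]
    exact hQ.2

/-- the kernel of reduction in `E[p]` -/
noncomputable def CC (hA : ((P.p : ℕ) : Qb) ∈ A.nonunits) : Submodule (ZMod P.p) (Tp P Qb) :=
  E1V (integral_p hA)

lemma mem_CC (hA : ((P.p : ℕ) : Qb) ∈ A.nonunits) (x : Tp P Qb) : x ∈ CC hA ↔
    (kum P (K := Qb)).InE1 (ordFnAt A P.pp hA) (x : ((P.freyCurve : Affine ℚ)⁄Qb).Point) :=
  Iff.rfl

lemma CC_smul (hA : ((P.p : ℕ) : Qb) ∈ A.nonunits) {τ : Qb ≃ₐ[ℚ] Qb}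
    (hτ : τ ∈ A.inertiaSubgroupIn ℚ) {x : Tp P Qb} (hx : x ∈ CC hA) : τ • x ∈ CC hA := by
  rw [mem_CC] at hx ⊢
  exact inE1_smul hA hτ hx

lemma CC_ne_top (hA : ((P.p : ℕ) : Qb) ∈ A.nonunits) (habc : (P.p : ℤ) ∣ P.a * P.b * P.c) :
    CC (P := P) hA ≠ ⊤ := by
  intro h
  obtain ⟨Q, -, hQp, hQE⟩ := frey_not_all hA habc
  apply hQE
  have hQmem : Q ∈ Submodule.torsionBy ℤ ((P.freyCurve : Affine ℚ)⁄Qb).Point (P.p : ℤ) := by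
    rw [Submodule.mem_torsionBy_iff, natCast_zsmul]; exact hQp
  have : (⟨Q, hQmem⟩ : Tp P Qb) ∈ CC hA := by rw [h]; trivial
  exact (mem_CC hA _).mp this

/-- a stable proper subspace of the plane is fixed by `(p-1)`-th powers -/
lemma pow_fix {N : Submodule (ZMod P.p) (Tp P Qb)} (hN : N ≠ ⊤) {τ : Qb ≃ₐ[ℚ] Qb}
    (hst : ∀ x ∈ N, τ • x ∈ N) {x : Tp P Qb} (hx : x ∈ N) : (τ ^ (P.p - 1)) • x = x := by
  by_cases hb : N = ⊥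
  · rw [hb, Submodule.mem_bot] at hx
    rw [hx, t_zero]
  obtain ⟨⟨n0, hn0⟩, hne, hspan⟩ := finrank_eq_one_iff'.mp (finrank_line hb hN)
  have hn0' : n0 ≠ 0 := fun h => hne (Subtype.ext h)
  obtain ⟨a, ha⟩ := hspan ⟨τ • n0, hst n0 hn0⟩
  have ha' : a • n0 = τ • n0 := congrArg Subtype.val ha
  have ha0 : a ≠ 0 := by
    rintro rfl
    rw [zero_smul] at ha'
    apply hn0'
    rw [← t_inv_smul τ n0, ← ha', t_zero]
  have h1 : ∀ k : ℕ, (τ ^ k) • n0 = (a ^ k) • n0 := by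
    intro k
    induction k with
    | zero => rw [pow_zero, pow_zero, t_one, one_smul]
    | succ k ih => rw [pow_succ', t_mul, ih, zsm, ← ha', smul_smul, pow_succ]
  obtain ⟨c, hc⟩ := hspan ⟨x, hx⟩
  have hc' : c • n0 = x := congrArg Subtype.val hc
  rw [← hc', zsm, h1, ZMod.pow_card_sub_one_eq_one ha0, one_smul]

/-- the subgroup acting trivially on `C` and on the `p`-th roots of unity -/
noncomputable def UU (hA : ((P.p : ℕ) : Qb) ∈ A.nonunits) (ζ : Qb) : Subgroup (Qb ≃ₐ[ℚ] Qb) :=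
  H2 (CC (P := P) hA) ⊓ MulAction.stabilizer (Qb ≃ₐ[ℚ] Qb) ζ

lemma mem_UU (hA : ((P.p : ℕ) : Qb) ∈ A.nonunits) {ζ : Qb} {τ : Qb ≃ₐ[ℚ] Qb} :
    τ ∈ UU (P := P) hA ζ ↔ (∀ x ∈ CC (P := P) hA, τ • x = x) ∧ τ ζ = ζ := Iff.rfl

lemma UU_finiteIndex (hA : ((P.p : ℕ) : Qb) ∈ A.nonunits) (ζ : Qb) :
    (UU (P := P) hA ζ).FiniteIndex := by
  have h1 : IsOpen (H2 (CC (P := P) hA) : Set (Qb ≃ₐ[ℚ] Qb)) :=
    isOpen_of_fixing _ (fun σ hσ x _ => hσ x)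
  have h2 : IsOpen (MulAction.stabilizer (Qb ≃ₐ[ℚ] Qb) ζ : Set (Qb ≃ₐ[ℚ] Qb)) :=
    stabilizer_isOpen_of_isIntegral (K := ℚ) (L := Qb) ζ
  have h3 : IsOpen (UU (P := P) hA ζ : Set (Qb ≃ₐ[ℚ] Qb)) := h1.inter h2
  haveI := Subgroup.quotient_finite_of_isOpen _ h3
  exact Subgroup.finiteIndex_of_finite_quotient

lemma UU_normal (hA : ((P.p : ℕ) : Qb) ∈ A.nonunits) {ζ : Qb} (hζ : IsPrimitiveRoot ζ P.p) :
    ((UU (P := P) hA ζ).subgroupOf (A.inertiaSubgroupIn ℚ)).Normal := by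
  refine ⟨fun u hu g => ?_⟩
  rw [Subgroup.mem_subgroupOf, mem_UU] at hu ⊢
  haveI : NeZero P.p := ⟨P.hp0⟩
  refine ⟨?_, ?_⟩
  · intro x hx
    have h1 := CC_smul hA (τ := (g : Qb ≃ₐ[ℚ] Qb)⁻¹)
      ((A.inertiaSubgroupIn ℚ).inv_mem g.2) hx
    show ((g : Qb ≃ₐ[ℚ] Qb) * u * (g : Qb ≃ₐ[ℚ] Qb)⁻¹) • x = x
    rw [t_mul, t_mul, hu.1 _ h1, t_smul_inv]
  · show (g : Qb ≃ₐ[ℚ] Qb) ((u : Qb ≃ₐ[ℚ] Qb) ((g : Qb ≃ₐ[ℚ] Qb)⁻¹ ζ)) = ζ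
    obtain ⟨i, hi, hτ⟩ := hζ.eq_pow_of_pow_eq_one (ξ := (g : Qb ≃ₐ[ℚ] Qb)⁻¹ ζ) (by
      rw [← map_pow, hζ.pow_eq_one, map_one])
    have h2 : (u : Qb ≃ₐ[ℚ] Qb) ((g : Qb ≃ₐ[ℚ] Qb)⁻¹ ζ) = (g : Qb ≃ₐ[ℚ] Qb)⁻¹ ζ := by
      rw [← hτ, map_pow, hu.2]
    rw [h2]
    exact (g : Qb ≃ₐ[ℚ] Qb).apply_symm_apply ζ

theorem UU_index (hA : ((P.p : ℕ) : Qb) ∈ A.nonunits) (habc : (P.p : ℤ) ∣ P.a * P.b * P.c)
    {ζ : Qb} (hζ : IsPrimitiveRoot ζ P.p) :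
    ¬ P.p ∣ ((UU (P := P) hA ζ).subgroupOf (A.inertiaSubgroupIn ℚ)).index := by
  haveI := UU_normal hA hζ
  haveI := UU_finiteIndex (P := P) hA ζ
  apply not_dvd_index _ P.pp
  intro g
  rw [Subgroup.mem_subgroupOf, mem_UU]
  have e : ((g ^ (P.p - 1) : A.inertiaSubgroupIn ℚ) : Qb ≃ₐ[ℚ] Qb) =
      (g : Qb ≃ₐ[ℚ] Qb) ^ (P.p - 1) := rfl
  rw [e]
  refine ⟨fun x hx => ?_, pow_root P.pp hζ _⟩
  exact pow_fix (CC_ne_top hA habc) (fun y hy => CC_smul hA g.2 hy) hx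

end Fermat.Agent.FU
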