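import Fermat.Agent.ECRed.AtP
import Fermat.Agent.ECRed.Star
import Fermat.Agent.ECRed.FreyTwo

set_option autoImplicit false
set_option linter.unusedSectionVars false

/-! # Bound for the order of a torsion point in the kernel of reduction -/

namespace Fermat.Agent.FU

open Fermat.Agent.ECRed OrdFn Polynomial WeierstrassCurve WeierstrassCurve.Affine
  WeierstrassCurve.Affine.Point
open scoped Pointwise

lemma ord_multiset_prod {K : Type*} [Field K] {v : OrdFn K} (s : Multiset K)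
    (hs : ∀ a ∈ s, a ≠ 0) : s.prod ≠ 0 ∧ v.ord s.prod = (s.map v.ord).sum := by
  induction s using Multiset.induction with
  | empty => simp [ord_one]
  | cons a s ih =>
    obtain ⟨h1, h2⟩ := ih (fun b hb => hs b (Multiset.mem_cons_of_mem hb))
    have ha := hs a (Multiset.mem_cons_self a s)
    refine ⟨by rw [Multiset.prod_cons]; exact mul_ne_zero ha h1, ?_⟩
    rw [Multiset.prod_cons, ord_mul ha h1, h2, Multiset.map_cons, Multiset.sum_cons]

lemma multiset_sum_nonpos (s : Multiset ℝ) (hs : ∀ a ∈ s, a ≤ 0) : s.sum ≤ 0 := by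
  induction s using Multiset.induction with
  | empty => simp
  | cons a s ih =>
    rw [Multiset.sum_cons]
    have h1 := ih (fun b hb => hs b (Multiset.mem_cons_of_mem hb))
    have h2 := hs a (Multiset.mem_cons_self a s)
    linarith

section Curve

variable {K : Type*} [Field K] [DecidableEq K] [Algebra ℚ K] {W : Affine ℚ} {v : OrdFn K}

/-- the `x`-coordinates of odd torsion points outside the kernel of reduction are distinct from
the `x`-coordinate of a nonsingular two torsion point modulo the maximal ideal -/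
theorem unit_sub {X Y : K} (hb : (KummerLine.ofCurve (W⁄K)).Integral v) (hX : v.Ge 0 X)
    (hns : (W⁄K).Nonsingular X Y) (h2 : 2 * Y + (W⁄K).a₁ * X + (W⁄K).a₃ = 0)
    (hu : v.Eq 0 (3 * X ^ 2 + 2 * (W⁄K).a₂ * X + (W⁄K).a₄ - (W⁄K).a₁ * Y))
    {n : ℕ} (hodd : Odd n) {R : (W⁄K).Point} (hR : n • R = 0)
    (hRE : ¬ (KummerLine.ofCurve (W⁄K)).InE1 v R) : v.Eq 0 (X - xN R) := by
  set κ := KummerLine.ofCurve (W⁄K) with hκ
  obtain ⟨hR0, hRi⟩ := KummerLine.not_inE1 hRE
  have hRi' : v.Ge 0 (xN R) := hRi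
  set T : (W⁄K).Point := Point.some X Y hns with hT
  have hnegT : -T = T := by
    rw [hT, neg_some]
    congr 1
    show -Y - (W⁄K).a₁ * X - (W⁄K).a₃ = Y
    linear_combination -h2
  have hT0 : T ≠ 0 := by rw [hT]; exact Point.some_ne_zero hns
  have hTT : T + T = 0 := by
    nth_rewrite 2 [← hnegT]
    exact add_neg_cancel T
  have hne : R ≠ T := by
    intro h
    have h3 : R + R = 0 := by rw [h]; exact hTT
    obtain ⟨k, hk⟩ := hodd
    rw [hk, add_smul, mul_comm, mul_smul, two_nsmul, h3, smul_zero, zero_add, one_smul] at hR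
    exact hR0 hR
  have hne' : R ≠ -T := by rw [hnegT]; exact hne
  obtain ⟨f0, -, f2⟩ := κ.add_sub_ne' hR0 hT0 hne hne'
  have hNT : κ.N T = X := rfl
  have hNR : κ.N R = xN R := rfl
  have hsub : R - T = R + T := by rw [sub_eq_add_neg, hnegT]
  rw [hsub, hNT, hNR] at f2
  rw [hNT, hNR] at f0
  by_contra hcon
  have hge : v.Ge 0 (X - xN R) := hX.sub hRi'
  have hgt : v.Gt 0 (X - xN R) := by
    by_contra h
    rw [not_gt_iff] at h
    exact hcon ⟨h.1, le_antisymm h.2 ((ge_iff h.1).mp hge)⟩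
  have hphi : κ.F2 X X = (3 * X ^ 2 + 2 * (W⁄K).a₂ * X + (W⁄K).a₄ - (W⁄K).a₁ * Y) ^ 2 := by
    rw [phi_eq hns.1 (by
      show Y = -Y - (W⁄K).a₁ * X - (W⁄K).a₃
      linear_combination h2)]
    show (X * X) ^ 2 - (W⁄K).b₄ * (X * X) - (W⁄K).b₆ * (X + X) - (W⁄K).b₈ = _
    ring
  have hdiff : κ.F2 (xN R) X = κ.F2 X X + -((X - xN R) *
      ((X + xN R) * X ^ 2 - κ.b₄ * X - κ.b₆)) := by
    simp only [KummerLine.F2]; ring
  have hF : v.Eq 0 (κ.F2 (xN R) X) := by
    rw [hdiff, hphi]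
    have h3 := hu.pow_two
    rw [mul_zero] at h3
    refine h3.add_gt ?_
    have h4 : v.Ge 0 ((X + xN R) * X ^ 2 - κ.b₄ * X - κ.b₆) := by
      have hX2 : v.Ge 0 (X ^ 2) := by have := hX.pow_two; rwa [mul_zero] at this
      exact ((((hX.add hRi').zero_mul hX2).sub (hb.b₄.zero_mul hX)).sub hb.b₆)
    have := hgt.mul_ge h4
    rw [add_zero] at this
    exact this.neg
  rw [← f2] at hF
  have h5 : xN R - X ≠ 0 := sub_ne_zero.mpr f0
  have h6 : v.Gt 0 (xN R - X) := by have := hgt.neg; rwa [neg_sub] at this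
  have h7 : κ.N (R + T) ≠ 0 := by
    intro h
    apply hF.1
    rw [h]; ring
  have h8 := hF.2
  rw [ord_mul (pow_ne_zero 2 h5) (mul_ne_zero h7 h7), ord_pow h5, ord_mul h7 h7] at h8
  have h9 := (gt_iff h5).mp h6
  push_cast at h8
  have hRT : R + T ≠ 0 := fun h => hne' (eq_neg_of_add_eq_zero_left h)
  have hE : κ.InE1 v (R + T) := by
    rw [KummerLine.inE1_iff hRT, not_ge_iff]
    exact ⟨h7, by linarith⟩
  have hE2 := KummerLine.inE1_add hb hE hE
  have h10 : R + T + (R + T) = R + R := by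
    rw [add_add_add_comm, hTT, add_zero]
  rw [h10] at hE2
  exact hRE (KummerLine.inE1_of_double hb hodd hR hE2)

/-- multiples of a point in the kernel of reduction -/
lemma ord_nsmul {κ : KummerLine (W⁄K).Point K} (hb : κ.Integral v) {Q : (W⁄K).Point}
    (hQ0 : Q ≠ 0) (hQ : κ.InE1 v Q) {n : ℕ} (hn : v.Eq 0 (n : K)) (hnQ : n • Q ≠ 0) :
    v.ord (κ.N (n • Q)) = v.ord (κ.N Q) ∧ κ.N (n • Q) ≠ 0 := by
  have h1 := (KummerLine.inE1_iff hQ0).mp hQ
  rw [not_ge_iff] at h1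
  have hc : 0 < -v.ord (κ.N Q) := by linarith [h1.2]
  have hw : κ.w Q = (κ.N Q)⁻¹ := by rw [KummerLine.w, κ.D_ne Q hQ0, one_div]
  have hE : κ.E1 v (-v.ord (κ.N Q)) Q := ⟨h1.1, by
    rw [hw]; exact (OrdFn.eq_self h1.1).inv.ge⟩
  obtain ⟨h2, h3⟩ := KummerLine.w_nsmul hb hc hE n
  have h4 : v.Eq (-v.ord (κ.N Q)) ((n : K) ^ 2 * κ.w Q) := by
    have h5 := hn.pow_two.mul (OrdFn.eq_self (v := v) h1.1).inv
    rw [← hw, mul_zero, zero_add] at h5
    exact h5
  have h5 : v.Eq (-v.ord (κ.N Q)) (κ.w (n • Q)) := by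
    have h6 := h4.add_gt h3
    have e : (n : K) ^ 2 * κ.w Q + (κ.w (n • Q) - (n : K) ^ 2 * κ.w Q) = κ.w (n • Q) := by ring
    rwa [e] at h6
  have hw' : κ.w (n • Q) = (κ.N (n • Q))⁻¹ := by rw [KummerLine.w, κ.D_ne _ hnQ, one_div]
  rw [hw'] at h5
  have h7 : κ.N (n • Q) ≠ 0 := h2.1
  have h8 := h5.2
  rw [ord_inv _ h7] at h8
  exact ⟨by linarith, h7⟩

end Curve

section Bound

variable {K : Type*} [Field K] [DecidableEq K] [Algebra ℚ K] [Algebra.IsAlgebraic ℚ K]
  [IsAlgClosed K] (A : ValuationSubring K) {p : ℕ}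

theorem s_bound (hp : p.Prime) (hodd : Odd p) (hA : (p : K) ∈ A.nonunits) (W : Affine ℚ)
    (hc : IntCoeff W (ordFnAt A hp hA)) (hΔ : (W⁄K).Δ ≠ 0)
    (hb : (KummerLine.ofCurve (W⁄K)).Integral (ordFnAt A hp hA))
    (hT : ∃ x y : K, (ordFnAt A hp hA).Ge 0 x ∧ (ordFnAt A hp hA).Ge 0 y ∧
      (W⁄K).Equation x y ∧ 2 * y + (W⁄K).a₁ * x + (W⁄K).a₃ = 0 ∧
      (ordFnAt A hp hA).Eq 0 (3 * x ^ 2 + 2 * (W⁄K).a₂ * x + (W⁄K).a₄ - (W⁄K).a₁ * y))
    {Q : (W⁄K).Point} (hQ0 : Q ≠ 0) (hQ : p • Q = 0)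
    (hQE : (KummerLine.ofCurve (W⁄K)).InE1 (ordFnAt A hp hA) Q) :
    ((p : ℝ) - 1) * (-(ordFnAt A hp hA).ord (xN Q)) ≤ 2 := by
  classical
  set v := ordFnAt A hp hA with hv
  have hcz := charZero_of_alg K
  have hmem : ∀ x, v.Ge 0 x → x ∈ A := fun x hx => (ordFnAt_ge A hp hA x).mp hx
  set WA := modelA A W hc hmem with hWA
  have hmap : WA.map A.subtype = (W⁄K) := rfl
  set f := (W⁄K).preΨ' p with hf
  have hfA : f = (WA.preΨ' p).map A.subtype := by
    rw [hf, ← hmap, map_preΨ']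
  have hpK : (p : K) ≠ 0 := by exact_mod_cast hp.ne_zero
  have hf0 : f ≠ 0 := (W⁄K).preΨ'_ne_zero hpK
  have hlc : f.leadingCoeff = p := by
    have := leadingCoeff_preΨ' (W⁄K) hpK
    rw [if_neg (Nat.not_even_iff_odd.mpr hodd)] at this
    exact this
  obtain ⟨x, y, hx, hy, hE, h2, h3⟩ := hT
  have hns : (W⁄K).Nonsingular x y := (equation_iff_nonsingular_of_Δ_ne_zero hΔ).mp hE
  -- the value at `x` is a unit
  have hval : v.Eq 0 (f.eval x) := by
    set xA : A := ⟨x, hmem x hx⟩ with hxA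
    set yA : A := ⟨y, hmem y hy⟩ with hyA
    have hEA : WA.toAffine.Equation xA yA := by
      rw [Affine.equation_iff] at hE ⊢
      exact Subtype.ext hE
    have h2A : 2 * yA + WA.a₁ * xA + WA.a₃ = 0 := Subtype.ext h2
    have h3A : IsUnit (3 * xA ^ 2 + 2 * WA.a₂ * xA + WA.a₄ - WA.a₁ * yA) := by
      rw [ValuationSubring.valuation_eq_one_iff]
      have e : ((3 * xA ^ 2 + 2 * WA.a₂ * xA + WA.a₄ - WA.a₁ * yA : A) : K) =
          3 * x ^ 2 + 2 * (W⁄K).a₂ * x + (W⁄K).a₄ - (W⁄K).a₁ * y := rfl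
      rw [e]
      have h4 : ¬ v.Gt 0 (3 * x ^ 2 + 2 * (W⁄K).a₂ * x + (W⁄K).a₄ - (W⁄K).a₁ * y) := h3.not_gt
      rw [hv, ordFnAt_gt, ValuationSubring.mem_nonunits_iff, not_lt] at h4
      refine le_antisymm ?_ h4
      rw [ValuationSubring.valuation_le_one_iff]
      exact hmem _ h3.ge
    have hi := eval_preΨ_unit A WA hEA h2A h3A hodd
    have e2 : f.eval x = (((WA.preΨ' p).eval xA : A) : K) := by
      rw [hfA, eval_map]
      exact (Polynomial.hom_eval₂ (WA.preΨ' p) (RingHom.id A) A.subtype xA).symm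
    rw [ValuationSubring.valuation_eq_one_iff] at hi
    rw [e2]
    have h5 : v.Ge 0 (((WA.preΨ' p).eval xA : A) : K) :=
      (ordFnAt_ge A hp hA _).mpr (Subtype.mem _)
    have h6 : ¬ v.Gt 0 (((WA.preΨ' p).eval xA : A) : K) := by
      rw [hv, ordFnAt_gt, ValuationSubring.mem_nonunits_iff, hi]
      exact lt_irrefl _
    rw [not_gt_iff] at h6
    exact ⟨h6.1, le_antisymm h6.2 ((ge_iff h6.1).mp h5)⟩
  -- the factorisation
  have hsplit := (IsAlgClosed.splits f).eq_prod_roots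
  have hev : f.eval x = (p : K) * (f.roots.map (fun a => x - a)).prod := by
    conv_lhs => rw [hsplit]
    rw [eval_mul, eval_C, hlc, eval_multiset_prod, Multiset.map_map]
    congr 2
    apply Multiset.map_congr rfl
    intro a _
    simp
  have hroot : ∀ a ∈ f.roots, ∃ R : (W⁄K).Point, R ≠ 0 ∧ p • R = 0 ∧ xN R = a := by
    intro a ha
    obtain ⟨R, hR0, hRx⟩ := DivPoly.exists_point (W := (W⁄K)) hΔ a
    refine ⟨R, hR0, ?_, hRx⟩
    rw [DivPoly.nsmul_eq_zero_iff_odd hR0 hodd, hRx]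
    exact (mem_roots hf0).mp ha
  have hprod0 : (f.roots.map (fun a => x - a)).prod ≠ 0 := by
    intro h
    apply hval.1
    rw [hev, h, mul_zero]
  have hne : ∀ a ∈ f.roots.map (fun a => x - a), a ≠ 0 := by
    intro a ha h0
    exact hprod0 (Multiset.prod_eq_zero (h0 ▸ ha))
  have hsum : ((f.roots.map (fun a => x - a)).map v.ord).sum = -1 := by
    have h4 := hval.2
    rw [hev, ord_mul hpK hprod0, (ordAt_q A hp hA).2, (ord_multiset_prod _ hne).2] at h4
    linarith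
  rw [Multiset.map_map] at hsum
  -- all the terms are nonpositive
  have hneg : ∀ a ∈ f.roots, (v.ord ∘ fun a => x - a) a ≤ 0 := by
    intro a ha
    obtain ⟨R, hR0, hR, rfl⟩ := hroot a ha
    show v.ord (x - xN R) ≤ 0
    by_cases hRE : (KummerLine.ofCurve (W⁄K)).InE1 v R
    · have h4 := (KummerLine.inE1_iff hR0).mp hRE
      have h4' : ¬ v.Ge 0 (xN R) := h4
      rw [not_ge_iff] at h4'
      by_contra h5
      push Not at h5
      have h6 : v.Ge 0 (x - xN R) := Or.inr h5.le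
      have h7 := hx.sub h6
      rw [sub_sub_cancel] at h7
      exact h4 h7
    · exact (unit_sub hb hx hns h2 h3 hodd hR hRE).2.le
  -- the multiples of `Q`
  have hQi := (KummerLine.inE1_iff hQ0).mp hQE
  have hQi' : ¬ v.Ge 0 (xN Q) := hQi
  rw [not_ge_iff] at hQi'
  set h := (p - 1) / 2 with hh
  have hp3 : 3 ≤ p := by
    have h2 := hp.two_le
    obtain ⟨k, hk⟩ := hodd
    omega
  have hord_eq : ∀ k : ℤ, k • Q = 0 → (p : ℤ) ∣ k := by
    intro k hk
    by_contra hnd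
    have hco : IsCoprime (p : ℤ) k :=
      (Nat.prime_iff_prime_int.mp hp).coprime_iff_not_dvd.mpr hnd
    obtain ⟨a, b, hab⟩ := hco
    apply hQ0
    have : (1 : ℤ) • Q = 0 := by
      rw [← hab, add_smul, mul_smul, mul_smul, natCast_zsmul, hQ, hk, smul_zero, smul_zero,
        add_zero]
    rwa [one_smul] at this
  have hjQ : ∀ j ∈ Finset.Icc 1 h, j • Q ≠ 0 := by
    intro j hj h0
    rw [Finset.mem_Icc] at hj
    have h4 := hord_eq j (by rw [natCast_zsmul]; exact h0)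
    have h5 : p ∣ j := by exact_mod_cast h4
    have := Nat.le_of_dvd hj.1 h5
    omega
  have hjord : ∀ j ∈ Finset.Icc 1 h, v.ord (xN (j • Q)) = v.ord (xN Q) ∧ xN (j • Q) ≠ 0 := by
    intro j hj
    have h4 : v.Eq 0 (j : K) := by
      have h5 : ¬ (p : ℤ) ∣ (j : ℤ) := by
        intro h5
        have h6 : p ∣ j := by exact_mod_cast h5
        rw [Finset.mem_Icc] at hj
        have := Nat.le_of_dvd hj.1 h6
        omega
      have h6 := Frey.eq_zero_of_not_dvd (A := A) hp hA h5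
      rwa [Int.cast_natCast] at h6
    exact ord_nsmul hb hQ0 hQE h4 (hjQ j hj)
  have hinj : Set.InjOn (fun j : ℕ => xN (j • Q)) (Finset.Icc 1 h : Set ℕ) := by
    intro j hj j' hj' hjj
    have hj1 := Finset.mem_Icc.mp hj
    have hj1' := Finset.mem_Icc.mp hj'
    rcases DivPoly.eq_or_neg_of_xN (hjQ j hj) (hjQ j' hj') hjj with h4 | h4
    · have h5 := hord_eq ((j : ℤ) - j') (by
        rw [sub_smul, natCast_zsmul, natCast_zsmul, h4, sub_self])
      obtain ⟨k, hk⟩ := h5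
      have : k = 0 := by
        by_contra hk0
        rcases lt_or_gt_of_ne hk0 with h6 | h6
        · have : (p : ℤ) * k ≤ -p := by nlinarith
          omega
        · have : (p : ℤ) ≤ p * k := by nlinarith
          omega
      rw [this] at hk
      omega
    · have h5 := hord_eq ((j : ℤ) + j') (by
        rw [add_smul, natCast_zsmul, natCast_zsmul, h4, neg_add_cancel])
      have h6 : p ∣ j + j' := by exact_mod_cast h5
      have := Nat.le_of_dvd (by omega) h6
      omega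
  set T := (Finset.Icc 1 h).image (fun j : ℕ => xN (j • Q)) with hTdef
  have hTle : T.val ≤ f.roots := by
    rw [Multiset.le_iff_subset T.nodup]
    intro a ha
    have ha' : a ∈ T := ha
    rw [hTdef, Finset.mem_image] at ha'
    obtain ⟨j, hj, rfl⟩ := ha'
    rw [mem_roots hf0]
    exact (DivPoly.nsmul_eq_zero_iff_odd (hjQ j hj) hodd).mp (by rw [smul_comm, hQ, smul_zero])
  obtain ⟨u, hu⟩ := Multiset.le_iff_exists_add.mp hTle
  have hsum2 : (T.val.map (v.ord ∘ fun a => x - a)).sum =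
      h * v.ord (xN Q) := by
    have h4 : (T.val.map (v.ord ∘ fun a => x - a)).sum = ∑ a ∈ T, v.ord (x - a) := rfl
    rw [h4, hTdef, Finset.sum_image hinj]
    have h5 : ∀ j ∈ Finset.Icc 1 h, v.ord (x - xN (j • Q)) = v.ord (xN Q) := by
      intro j hj
      obtain ⟨h6, h7⟩ := hjord j hj
      have h8 : v.Eq (v.ord (xN Q)) (xN (j • Q)) := ⟨h7, h6⟩
      have h9 : v.Gt (v.ord (xN Q)) (-x) := (hx.gt hQi'.2).neg
      have h10 := (h8.add_gt h9).neg
      have e : -(xN (j • Q) + -x) = x - xN (j • Q) := by ring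
      rw [e] at h10
      exact h10.2
    rw [Finset.sum_congr rfl h5, Finset.sum_const, Nat.card_Icc, nsmul_eq_mul,
      Nat.add_sub_cancel]
  rw [hu, Multiset.map_add, Multiset.sum_add, hsum2] at hsum
  have hu0 : (u.map (v.ord ∘ fun a => x - a)).sum ≤ 0 := by
    apply multiset_sum_nonpos
    intro b hb
    obtain ⟨a, ha, rfl⟩ := Multiset.mem_map.mp hb
    exact hneg a (by rw [hu]; exact Multiset.mem_add.mpr (Or.inr ha))
  have hh2 : (h : ℝ) = ((p : ℝ) - 1) / 2 := by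
    obtain ⟨k, hk⟩ := hodd
    have h8 : h = k := by omega
    rw [h8, hk]
    push_cast; ring
  rw [hh2] at hsum
  nlinarith

end Bound

end Fermat.Agent.FU
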