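import Fermat.Agent.ECRed.Ord
import Mathlib.RingTheory.RootsOfUnity.PrimitiveRoots
import Mathlib.RingTheory.RootsOfUnity.Complex
import Mathlib.FieldTheory.IsAlgClosed.Basic

set_option autoImplicit false
set_option linter.unusedSectionVars false

/-! # Kummer theory: eigenvector expansion and orders -/

namespace Fermat.Agent.FU

open Fermat.Agent.ECRed OrdFn Finset

variable {K : Type*} [Field K] {v : OrdFn K} {p : ℕ}

lemma ge_sum {ι : Type*} {c : ℝ} (s : Finset ι) (f : ι → K) (h : ∀ i ∈ s, v.Ge c (f i)) :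
    v.Ge c (∑ i ∈ s, f i) := by
  classical
  induction s using Finset.induction with
  | empty => simp [Ge.zero]
  | insert a s ha ih =>
    rw [Finset.sum_insert ha]
    exact (h a (mem_insert_self a s)).add (ih fun i hi => h i (mem_insert_of_mem hi))

lemma gt_sum {ι : Type*} {c : ℝ} (s : Finset ι) (f : ι → K) (h : ∀ i ∈ s, v.Gt c (f i)) :
    v.Gt c (∑ i ∈ s, f i) := by
  classical
  induction s using Finset.induction with
  | empty => simp [Gt.zero]
  | insert a s ha ih =>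
    rw [Finset.sum_insert ha]
    exact (h a (mem_insert_self a s)).add (ih fun i hi => h i (mem_insert_of_mem hi))

/-- terms with distinct orders -/
lemma ge_of_distinct {ι : Type*} (s : Finset ι) (f : ι → K) (hs : v.Ge 0 (∑ i ∈ s, f i))
    (hd : ∀ i ∈ s, ∀ j ∈ s, f i ≠ 0 → f j ≠ 0 → i ≠ j → v.ord (f i) ≠ v.ord (f j)) :
    ∀ i ∈ s, v.Ge 0 (f i) := by
  classical
  by_contra hcon
  push Not at hcon
  obtain ⟨i, hi, hneg⟩ := hcon
  rw [not_ge_iff] at hneg
  set s' := s.filter (fun i => f i ≠ 0) with hs'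
  have hne : s'.Nonempty := ⟨i, by rw [hs', mem_filter]; exact ⟨hi, hneg.1⟩⟩
  obtain ⟨i0, hi0, hmin⟩ := s'.exists_min_image (fun i => v.ord (f i)) hne
  have hi0' := mem_filter.mp hi0
  have h1 : v.ord (f i0) < 0 :=
    lt_of_le_of_lt (hmin i (by rw [hs', mem_filter]; exact ⟨hi, hneg.1⟩)) hneg.2
  have h2 : v.Gt (v.ord (f i0)) (∑ j ∈ s.erase i0, f j) := by
    apply gt_sum
    intro j hj
    rw [mem_erase] at hj
    by_cases hj0 : f j = 0
    · left; exact hj0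
    · right
      refine lt_of_le_of_ne (hmin j (by rw [hs', mem_filter]; exact ⟨hj.2, hj0⟩)) ?_
      exact hd i0 hi0'.1 j hj.2 hi0'.2 hj0 (Ne.symm hj.1)
  have h3 : v.Eq (v.ord (f i0)) (∑ j ∈ s, f j) := by
    rw [← add_sum_erase s f hi0'.1]
    exact (OrdFn.eq_self hi0'.2).add_gt h2
  have h4 := h3.2
  have h5 := (ge_iff h3.1).mp hs
  linarith

lemma ord_of_pow_one {x : K} {n : ℕ} (hn : n ≠ 0) (hx : x ^ n = 1) : v.Eq 0 x := by
  have hx0 : x ≠ 0 := by
    rintro rfl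
    rw [zero_pow hn] at hx
    exact zero_ne_one hx
  refine ⟨hx0, ?_⟩
  have h := ord_pow (v := v) hx0 n
  rw [hx, ord_one] at h
  have h2 : (n : ℝ) ≠ 0 := by exact_mod_cast hn
  rcases mul_eq_zero.mp h.symm with h3 | h3
  · exact absurd h3 h2
  · exact h3

/-- the order of `1 - ω` -/
lemma ord_one_sub (hp : p.Prime) (hv : v.Eq 1 (p : K)) {ω : K}
    (hω : IsPrimitiveRoot ω p) : v.Ge (1 / ((p : ℝ) - 1)) (1 - ω) := by
  have hp2 := hp.two_le
  obtain ⟨n, rfl⟩ : ∃ n, p = n + 1 := ⟨p - 1, by omega⟩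
  have hprod := hω.prod_one_sub_pow_eq_order
  have hω0 : v.Eq 0 ω := ord_of_pow_one (Nat.succ_ne_zero n) hω.pow_eq_one
  have h1ω : 1 - ω ≠ 0 := by
    intro h
    have h2 : ω = 1 := (sub_eq_zero.mp h).symm
    have := hω.eq_orderOf
    rw [h2, orderOf_one] at this
    omega
  have hne : ∀ k ∈ range n, (1 - ω ^ (k + 1)) ≠ 0 := by
    intro k hk h
    rw [mem_range] at hk
    have h2 : ω ^ (k + 1) = 1 := (sub_eq_zero.mp h).symm
    have h3 := (hω.pow_eq_one_iff_dvd _).mp h2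
    have := Nat.le_of_dvd (by omega) h3
    omega
  have hle : ∀ k ∈ range n, v.ord (1 - ω ^ (k + 1)) ≤ v.ord (1 - ω) := by
    intro k hk
    have hk' := mem_range.mp hk
    have hco : Nat.Coprime (k + 1) (n + 1) := by
      rw [Nat.coprime_comm]
      exact (Nat.Prime.coprime_iff_not_dvd hp).mpr (fun h => by
        have := Nat.le_of_dvd (by omega) h
        omega)
    obtain ⟨l, -, hl⟩ := Nat.exists_mul_mod_eq_one_of_coprime hco (by omega)
    have h4 : ω = (ω ^ (k + 1)) ^ l := by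
      rw [← pow_mul, ← Nat.div_add_mod ((k + 1) * l) (n + 1), hl, pow_add, pow_mul,
        hω.pow_eq_one, one_pow, one_mul, pow_one]
    have h5 : 1 - ω = (1 - ω ^ (k + 1)) * ∑ i ∈ range l, (ω ^ (k + 1)) ^ i := by
      have := mul_neg_geom_sum (ω ^ (k + 1)) l
      rw [this, ← h4]
    have h6 : v.Ge 0 (∑ i ∈ range l, (ω ^ (k + 1)) ^ i) := by
      apply ge_sum
      intro i _
      have := ((hω0.pow (k + 1)).pow i).ge
      simpa using this
    have h7 : (∑ i ∈ range l, (ω ^ (k + 1)) ^ i) ≠ 0 := by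
      intro h
      rw [h, mul_zero] at h5
      exact h1ω h5
    rw [h5, ord_mul (hne k hk) h7]
    have := (ge_iff h7).mp h6
    linarith
  have hsum : ∀ s : Finset ℕ, (∀ k ∈ s, (1 - ω ^ (k + 1)) ≠ 0) →
      v.ord (∏ k ∈ s, (1 - ω ^ (k + 1))) = ∑ k ∈ s, v.ord (1 - ω ^ (k + 1)) := by
    intro s
    induction s using Finset.induction with
    | empty => intro _; simp [ord_one]
    | insert a s ha ih =>
      intro h
      rw [Finset.prod_insert ha, Finset.sum_insert ha, ord_mul (h a (mem_insert_self a s))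
        (Finset.prod_ne_zero_iff.mpr fun k hk => h k (mem_insert_of_mem hk)),
        ih fun k hk => h k (mem_insert_of_mem hk)]
  have h8 := hsum _ hne
  rw [hprod] at h8
  have h9 : v.ord ((n : K) + 1) = 1 := by
    have := hv.2
    push_cast at this
    exact this
  rw [h9] at h8
  have h10 : (1 : ℝ) ≤ n * v.ord (1 - ω) := by
    calc (1 : ℝ) = ∑ k ∈ range n, v.ord (1 - ω ^ (k + 1)) := h8
      _ ≤ ∑ k ∈ range n, v.ord (1 - ω) := Finset.sum_le_sum hle
      _ = n * v.ord (1 - ω) := by rw [Finset.sum_const, card_range, nsmul_eq_mul]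
  right
  push_cast
  have hn : (0 : ℝ) < n := by
    have : 0 < n := by omega
    exact_mod_cast this
  rw [add_sub_cancel_right, div_le_iff₀ hn]
  linarith

section main

variable (σ : K ≃+* K) {ξ z b : K}

/-- the eigencomponents -/
def eig (p : ℕ) (σ : K ≃+* K) (ξ z : K) (i : ℕ) : K :=
  (p : K)⁻¹ * ∑ j ∈ range p, (ξ⁻¹ ^ i) ^ j * (σ ^ j) z

lemma sum_eig (hp : p.Prime) (hξ : IsPrimitiveRoot ξ p) (hpK : (p : K) ≠ 0) :
    ∑ i ∈ range p, eig p σ ξ z i = z := by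
  have h1 : ∑ i ∈ range p, eig p σ ξ z i =
      (p : K)⁻¹ * ∑ j ∈ range p, (∑ i ∈ range p, (ξ⁻¹ ^ j) ^ i) * (σ ^ j) z := by
    unfold eig
    rw [← Finset.mul_sum, Finset.sum_comm]
    congr 1
    refine Finset.sum_congr rfl fun j _ => ?_
    rw [Finset.sum_mul]
    refine Finset.sum_congr rfl fun i _ => ?_
    rw [← pow_mul, ← pow_mul, mul_comm i j]
  rw [h1, Finset.sum_eq_single 0]
  · rw [pow_zero]
    simp only [one_pow, sum_const, card_range, nsmul_eq_mul, mul_one, pow_zero]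
    rw [← mul_assoc, inv_mul_cancel₀ hpK, one_mul]
    rfl
  · intro j hj hj0
    rw [mem_range] at hj
    have h2 : IsPrimitiveRoot (ξ⁻¹ ^ j) p :=
      hξ.inv.pow_of_coprime j ((Nat.coprime_comm).mp
        ((Nat.Prime.coprime_iff_not_dvd hp).mpr (fun h => by
          have := Nat.le_of_dvd (by omega) h
          omega)))
    rw [h2.geom_sum_eq_zero hp.one_lt, zero_mul]
  · intro h
    exact absurd (mem_range.mpr hp.pos) h

lemma sig_eig (hξ : IsPrimitiveRoot ξ p) (hσξ : σ ξ = ξ) (hσz : (σ ^ p) z = z) (i : ℕ) :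
    σ (eig p σ ξ z i) = ξ ^ i * eig p σ ξ z i := by
  by_cases hp0 : p = 0
  · subst hp0
    simp [eig]
  have hξ0 : ξ ≠ 0 := hξ.ne_zero hp0
  unfold eig
  rw [map_mul, map_inv₀, map_natCast, map_sum, mul_left_comm]
  congr 1
  rw [Finset.mul_sum]
  have h1 : ∀ j, σ ((ξ⁻¹ ^ i) ^ j * (σ ^ j) z) = ξ ^ i * ((ξ⁻¹ ^ i) ^ (j + 1) * (σ ^ (j + 1)) z) := by
    intro j
    rw [map_mul, map_pow, map_pow, map_inv₀, hσξ, pow_succ', pow_succ' σ]
    have h2 : ξ ^ i * (ξ⁻¹ ^ i * (ξ⁻¹ ^ i) ^ j * (σ * σ ^ j) z) =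
        (ξ ^ i * ξ⁻¹ ^ i) * ((ξ⁻¹ ^ i) ^ j * (σ * σ ^ j) z) := by ring
    rw [h2, ← mul_pow, mul_inv_cancel₀ hξ0, one_pow, one_mul]
    rfl
  rw [Finset.sum_congr rfl fun j _ => h1 j, ← Finset.mul_sum, ← Finset.mul_sum]
  congr 1
  have h3 := Finset.sum_range_succ (fun j => (ξ⁻¹ ^ i) ^ j * (σ ^ j) z) p
  have h4 := Finset.sum_range_succ' (fun j => (ξ⁻¹ ^ i) ^ j * (σ ^ j) z) p
  rw [h3] at h4
  have h5 : (ξ⁻¹ ^ i) ^ p * (σ ^ p) z = (ξ⁻¹ ^ i) ^ 0 * (σ ^ 0) z := by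
    rw [hσz, ← pow_mul, mul_comm i p, pow_mul, inv_pow, hξ.pow_eq_one, inv_one, one_pow, pow_zero,
      pow_zero]
    rfl
  rw [h5] at h4
  exact (add_right_cancel h4).symm

/-- **key estimate** -/
theorem gt_of_eig (hp : p.Prime) (hodd : Odd p) (hv : v.Eq 1 (p : K)) (hξ : IsPrimitiveRoot ξ p)
    (hσξ : σ ξ = ξ) (hσz : (σ ^ p) z = z) (hz : v.Ge 0 z) {β : ℝ} {a : ℤ} (hβ : p * β = a)
    (ha : ¬ (p : ℤ) ∣ a)
    (hH : ∀ i ∈ range p, eig p σ ξ z i ≠ 0 → ∃ n : ℕ, ¬ p ∣ n ∧ ∃ m : ℤ,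
      n * (v.ord (eig p σ ξ z i) - i * β) = m) :
    v.Gt (1 / ((p : ℝ) - 1)) (σ z - σ.symm z) := by
  have hpR : (p : ℝ) ≠ 0 := by exact_mod_cast hp.ne_zero
  have hpZ : Prime (p : ℤ) := Nat.prime_iff_prime_int.mp hp
  have hξ0 : ξ ≠ 0 := hξ.ne_zero hp.ne_zero
  have hsum := sum_eig σ (z := z) hp hξ hv.1
  -- arithmetic
  have arith : ∀ (n n' : ℕ) (m m' : ℤ) (k : ℤ) (x y : ℝ), ¬ p ∣ n → ¬ p ∣ n' → ¬ (p : ℤ) ∣ k →
      n * x = m → n' * y = m' → x + k * β ≠ y := by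
    intro n n' m m' k x y hn hn' hk hx hy h
    have h1 : (n : ℝ) * n' * (k * a) = p * (n * m' - n' * m) := by
      rw [← hβ, ← hx, ← hy, ← h]; ring
    have h2 : (n : ℤ) * n' * (k * a) = p * (n * m' - n' * m) := by exact_mod_cast h1
    have h3 : (p : ℤ) ∣ (n : ℤ) * n' * (k * a) := ⟨_, h2⟩
    rcases hpZ.dvd_or_dvd h3 with h4 | h4
    · rcases hpZ.dvd_or_dvd h4 with h5 | h5
      · exact hn (by exact_mod_cast h5)
      · exact hn' (by exact_mod_cast h5)
    · rcases hpZ.dvd_or_dvd h4 with h5 | h5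
      · exact hk h5
      · exact ha h5
  have hdist : ∀ i ∈ range p, ∀ j ∈ range p, eig p σ ξ z i ≠ 0 → eig p σ ξ z j ≠ 0 → i ≠ j →
      v.ord (eig p σ ξ z i) ≠ v.ord (eig p σ ξ z j) := by
    intro i hi j hj hi0 hj0 hij h
    obtain ⟨n, hn, m, hm⟩ := hH i hi hi0
    obtain ⟨n', hn', m', hm'⟩ := hH j hj hj0
    refine arith n n' m m' ((i : ℤ) - j) _ _ hn hn' ?_ hm hm' ?_
    · intro hd
      have hi' := mem_range.mp hi
      have hj' := mem_range.mp hj
      obtain ⟨c, hc⟩ := hd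
      have : c = 0 := by
        by_contra hc0
        rcases lt_or_gt_of_ne hc0 with h6 | h6
        · have : (p : ℤ) * c ≤ -p := by nlinarith [hp.pos]
          omega
        · have : (p : ℤ) ≤ p * c := by nlinarith [hp.pos]
          omega
      rw [this] at hc
      omega
    · rw [h]; push_cast; ring
  have hge := ge_of_distinct (range p) (eig p σ ξ z) (by rw [hsum]; exact hz) hdist
  have hgt : ∀ i ∈ range p, i ≠ 0 → v.Gt 0 (eig p σ ξ z i) := by
    intro i hi hi0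
    by_contra h
    rw [not_gt_iff] at h
    have h1 : v.ord (eig p σ ξ z i) = 0 := le_antisymm h.2 ((ge_iff h.1).mp (hge i hi))
    obtain ⟨n, hn, m, hm⟩ := hH i hi h.1
    refine arith n 1 m 0 (i : ℤ) _ 0 hn ?_ ?_ hm (by simp) ?_
    · intro h2
      exact hp.one_lt.ne' (Nat.dvd_one.mp h2)
    · intro h2
      have h3 : p ∣ i := by exact_mod_cast h2
      have := Nat.le_of_dvd (Nat.pos_of_ne_zero hi0) h3
      have := mem_range.mp hi
      omega
    · rw [h1]; push_cast; ring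
  -- the difference
  have hsig : ∀ i, σ.symm (eig p σ ξ z i) = ξ⁻¹ ^ i * eig p σ ξ z i := by
    intro i
    rw [RingEquiv.symm_apply_eq, map_mul, map_pow, map_inv₀, hσξ, sig_eig σ hξ hσξ hσz,
      ← mul_assoc, ← mul_pow, inv_mul_cancel₀ hξ0, one_pow, one_mul]
  have hdiff : σ z - σ.symm z = ∑ i ∈ range p, (ξ ^ i - ξ⁻¹ ^ i) * eig p σ ξ z i := by
    conv_lhs => rw [← hsum]
    rw [map_sum, map_sum, ← Finset.sum_sub_distrib]
    refine Finset.sum_congr rfl fun i _ => ?_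
    rw [sig_eig σ hξ hσξ hσz, hsig]; ring
  rw [hdiff]
  apply gt_sum
  intro i hi
  by_cases hi0 : i = 0
  · left; rw [hi0, pow_zero, pow_zero, sub_self, zero_mul]
  have hi' := mem_range.mp hi
  have h1 : IsPrimitiveRoot (ξ ^ (2 * i)) p :=
    hξ.pow_of_coprime (2 * i) ((Nat.coprime_comm).mp
      ((Nat.Prime.coprime_iff_not_dvd hp).mpr (fun h => by
        rcases (Nat.Prime.dvd_mul hp).mp h with h2 | h2
        · have := Nat.le_of_dvd (by norm_num) h2
          have h3 := hp.two_le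
          obtain ⟨k, hk⟩ := hodd
          omega
        · have := Nat.le_of_dvd (by omega) h2
          omega)))
  have h2 := ord_one_sub hp hv h1
  have h3 : v.Eq 0 (-(ξ⁻¹ ^ i)) := by
    have := ((ord_of_pow_one (v := v) hp.ne_zero hξ.inv.pow_eq_one).pow i).neg
    simpa using this
  have h4 : ξ ^ i - ξ⁻¹ ^ i = -(ξ⁻¹ ^ i) * (1 - ξ ^ (2 * i)) := by
    have h5 : ξ⁻¹ ^ i * ξ ^ (2 * i) = ξ ^ i := by
      rw [two_mul, pow_add, ← mul_assoc, ← mul_pow, inv_mul_cancel₀ hξ0, one_pow, one_mul]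
    linear_combination -h5
  rw [h4]
  have h5 := (h3.ge.mul h2).mul_gt (hgt i hi hi0)
  rw [zero_add, add_zero] at h5
  exact h5

end main

end Fermat.Agent.FU
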