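import Fermat.Agent.FU.NotAll
import Fermat.Agent.FU.Kum
import Fermat.Agent.ECRed.Cofixed
import Fermat.Agent.Carayol.Inertia

set_option autoImplicit false
set_option linter.unusedSectionVars false

/-! # Group theory for the Kummer argument -/

namespace Fermat.Agent.FU

open Fermat.Agent.ECRed Fermat.Agent.ECRed.Frey Fermat.Agent.Carayol OrdFn WeierstrassCurve
  WeierstrassCurve.Affine WeierstrassCurve.Affine.Point
open scoped Pointwise

lemma not_dvd_index {G : Type*} [Group G] (H : Subgroup G) [H.Normal] [H.FiniteIndex] {p : ℕ}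
    (hp : p.Prime) (h : ∀ g : G, g ^ (p - 1) ∈ H) : ¬ p ∣ H.index := by
  haveI := Fact.mk hp
  intro hd
  haveI : Finite (G ⧸ H) := Subgroup.finite_quotient_of_finiteIndex
  obtain ⟨x, hx⟩ := exists_prime_orderOf_dvd_card' (G := G ⧸ H) p hd
  obtain ⟨g, rfl⟩ := QuotientGroup.mk_surjective x
  have h1 : ((g : G ⧸ H)) ^ (p - 1) = 1 := by
    rw [← QuotientGroup.mk_pow, QuotientGroup.eq_one_iff]; exact h g
  have h2 := orderOf_dvd_of_pow_eq_one h1
  rw [hx] at h2
  have h3 := hp.two_le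
  have := Nat.le_of_dvd (by omega) h2
  omega

lemma ord_prod_const {K : Type*} [Field K] {v : OrdFn K} (s : Finset K) {c : ℝ}
    (hs : ∀ a ∈ s, v.Eq c a) : v.Eq (s.card * c) (∏ a ∈ s, a) := by
  classical
  induction s using Finset.induction with
  | empty => simpa using eq_one
  | insert a s ha ih =>
    rw [Finset.prod_insert ha, Finset.card_insert_of_notMem ha]
    have h1 := (hs a (Finset.mem_insert_self a s)).mul
      (ih fun b hb => hs b (Finset.mem_insert_of_mem hb))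
    convert h1 using 1
    push_cast; ring

lemma inertia_decomp {A : ValuationSubring Qb} {σ : Qb ≃ₐ[ℚ] Qb}
    (hσ : σ ∈ A.inertiaSubgroupIn ℚ) : σ ∈ A.decompositionSubgroup ℚ := by
  obtain ⟨⟨σ', hσ'⟩, -, h2⟩ := hσ
  have h3 : σ' = σ := h2
  subst h3
  exact hσ'

variable {q : ℕ} {A : ValuationSubring Qb}

/-- integrality of the values of elements fixed by inertia -/
theorem ord_int (hq : q.Prime) (hA : A.LiesOverPrime q) {x : Qb} (hx0 : x ≠ 0)
    (hx : ∀ σ ∈ A.inertiaSubgroupIn ℚ, σ x = x) :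
    ∃ n : ℤ, (ordFnAt A hq hA).ord x = n := by
  obtain ⟨n, u, -, hu, rfl⟩ := exists_unit_mul hq hA ((mem_K0 A).mpr hx) hx0
  refine ⟨n, ?_⟩
  have h := ordAt_eq A hq hA (x := (q : Qb) ^ n * u) hx0 (e := 1) one_pos (f := n) (by
    rw [pow_one, map_mul, hu, mul_one, map_zpow₀])
  rw [Nat.cast_one, div_one] at h
  exact h

theorem ord_rational (hq : q.Prime) (hA : A.LiesOverPrime q) (U : Subgroup (Qb ≃ₐ[ℚ] Qb))
    {p : ℕ} [hfi : (U.subgroupOf (A.inertiaSubgroupIn ℚ)).FiniteIndex]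
    (hU : ¬ p ∣ (U.subgroupOf (A.inertiaSubgroupIn ℚ)).index) {x : Qb} (hx0 : x ≠ 0)
    (hx : ∀ τ ∈ A.inertiaSubgroupIn ℚ, τ ∈ U → τ x = x) :
    ∃ n : ℕ, ¬ p ∣ n ∧ ∃ m : ℤ, (n : ℝ) * (ordFnAt A hq hA).ord x = m := by
  classical
  set I := A.inertiaSubgroupIn ℚ with hI
  have hle : U.subgroupOf I ≤ MulAction.stabilizer I x := by
    intro τ hτ
    rw [Subgroup.mem_subgroupOf] at hτ
    rw [MulAction.mem_stabilizer_iff]
    exact hx τ τ.2 hτ
  have hdvd := Subgroup.index_dvd_of_le hle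
  have hne0 : (MulAction.stabilizer I x).index ≠ 0 := by
    intro h
    rw [h, zero_dvd_iff] at hdvd
    exact hfi.index_ne_zero hdvd
  have hcard := MulAction.index_stabilizer (G := I) (x := x)
  rw [hcard] at hdvd hne0
  have hfin : (MulAction.orbit I x).Finite := Set.finite_of_ncard_ne_zero hne0
  refine ⟨(MulAction.orbit I x).ncard, fun h => hU (h.trans hdvd), ?_⟩
  set s := hfin.toFinset with hs
  have hsc : s.card = (MulAction.orbit I x).ncard := (Set.ncard_eq_toFinset_card _ hfin).symm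
  have hEq : (ordFnAt A hq hA).Eq (s.card * (ordFnAt A hq hA).ord x) (∏ a ∈ s, a) := by
    apply ord_prod_const
    intro a ha
    rw [hs, Set.Finite.mem_toFinset] at ha
    obtain ⟨τ, rfl⟩ := ha
    have e : (τ • x : Qb) = (τ : Qb ≃ₐ[ℚ] Qb) x := rfl
    show (ordFnAt A hq hA).Eq _ (τ • x)
    rw [e]
    refine ⟨?_, ?_⟩
    · rw [Ne, EmbeddingLike.map_eq_zero_iff]; exact hx0
    · exact ordAt_smul A hq hA (inertia_decomp τ.2) x
  obtain ⟨m, hm⟩ := ord_int hq hA hEq.1 (by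
    intro σ hσ
    rw [map_prod]
    refine Finset.prod_equiv (σ.toEquiv) ?_ ?_
    · intro a
      rw [hs, Set.Finite.mem_toFinset, Set.Finite.mem_toFinset]
      constructor
      · rintro ⟨τ, rfl⟩
        exact ⟨⟨σ, hσ⟩ * τ, by
          show ((⟨σ, hσ⟩ * τ : I) • x : Qb) = σ (τ • x)
          rw [mul_smul]; rfl⟩
      · rintro ⟨τ, hτ⟩
        refine ⟨⟨σ, hσ⟩⁻¹ * τ, ?_⟩
        have hτ' : τ • x = σ a := hτ
        show ((⟨σ, hσ⟩⁻¹ * τ : I) • x : Qb) = a
        rw [mul_smul, hτ', inv_smul_eq_iff]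
        rfl
    · intro a _
      rfl)
  refine ⟨m, ?_⟩
  rw [← hm, ← hsc]
  exact hEq.2.symm

end Fermat.Agent.FU
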