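import Fermat.Agent.FU.Bound
import Fermat.Agent.ECRed.FreyP

set_option autoImplicit false
set_option linter.unusedSectionVars false

/-! # The difference of `x`-coordinates at a multiplicative place -/

namespace Fermat.Agent.FU

open Fermat.Agent.ECRed Fermat.Agent.ECRed.Frey OrdFn WeierstrassCurve WeierstrassCurve.Affine
  WeierstrassCurve.Affine.Point
open scoped Pointwise

section Gen

variable {K : Type*} [Field K] [DecidableEq K] [Algebra ℚ K] {W : Affine ℚ} {v : OrdFn K}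

theorem diff_ord {κ : KummerLine (W⁄K).Point K} {r : ℚ}
    (hκ : κ = (KummerLine.ofCurve (W⁄K)).translate (algebraMap ℚ K r))
    (h2 : v.Eq 0 (2 : K)) {m : ℝ} (h : κ.MultAt v m) {n : ℕ} {S : AddSubgroup (W⁄K).Point}
    (t : κ.Tors v n S) {k₀ : ℤ} (hm : m = n * k₀) {R : (W⁄K).Point} (hR : R ∈ S) (hR0 : R ≠ 0)
    {Q : (W⁄K).Point} (hQ0 : Q ≠ 0) (hQE : κ.InE1 v Q) :
    ∃ c : ℤ, v.Eq c (κ.N R) ∧ v.Eq (c - v.ord (κ.N Q) / 2) (κ.N (R - Q) - κ.N (R + Q)) := by
  have hn0 : (n : ℝ) ≠ 0 := by exact_mod_cast t.odd.pos.ne'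
  obtain ⟨j, hj⟩ := KummerLine.Sub.comp_torsion h t hR
  have hcomp : κ.comp v R = ((2 * k₀ * j : ℤ) : ℝ) := by
    apply mul_left_cancel₀ hn0
    rw [hj, hm]; push_cast; ring
  obtain ⟨ha0, ham⟩ := KummerLine.Sub.comp_range h t hR
  have hx := KummerLine.Sub.comp_eq h t hR0 hR
  have hpsi : v.Eq (2 * κ.comp v R) (κ.psi (κ.N R)) := by
    rcases ha0.eq_or_lt with ha | ha
    · rw [← ha] at hx ⊢
      rw [mul_zero]
      have h2P := KummerLine.two_ne t.odd hR0 (t.tor _ hR)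
      obtain ⟨e0, e⟩ := κ.dup hR0 h2P
      have h2u := KummerLine.Sub.unit_double h t hR0 hR hx
      have hphi : v.Eq 0 (κ.phi (κ.N R)) := by
        rw [KummerLine.phi_eq_F2]
        have := KummerLine.F2_lt h hx hx le_rfl le_rfl (by linarith [h.pos])
        simpa using this
      rw [← e, mul_comm] at hphi
      simpa using hphi.of_mul_eq h2u
    · rw [KummerLine.psi_eq_F1, two_mul]
      exact KummerLine.F1_eq h hx hx ha ha ham ham
  have e1 : eta R ^ 2 = κ.psi (κ.N R) := eta_sq_translate hκ hR0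
  have e3 : v.Eq (κ.comp v R) (eta R) := by
    have h0 : eta R ≠ 0 := by
      intro h0
      rw [h0] at e1
      exact hpsi.ne (by rw [← e1]; ring)
    refine ⟨h0, ?_⟩
    have := hpsi.2
    rw [← e1, ord_pow h0] at this
    push_cast at this
    linarith
  -- the point `Q`
  have hQi := (KummerLine.inE1_iff hQ0).mp hQE
  rw [not_ge_iff] at hQi
  obtain ⟨hx0, hxn⟩ := hQi
  set d := v.ord (κ.N Q) with hd
  have hxQ : v.Eq d (κ.N Q) := ⟨hx0, rfl⟩
  have f1 : eta Q ^ 2 = κ.psi (κ.N Q) := eta_sq_translate hκ hQ0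
  have hb := h.integral
  have hpsiQ : v.Eq (3 * d) (κ.psi (κ.N Q)) := by
    have g0 : v.Eq (3 * d) (4 * κ.N Q ^ 3) := by
      have h4 : v.Eq 0 (4 : K) := by
        have := h2.pow 2
        norm_num at this
        exact this
      have := h4.mul (hxQ.pow 3)
      push_cast at this
      rwa [zero_add] at this
    have g1 : v.Gt (3 * d) (κ.b₂ * κ.N Q ^ 2) := by
      have := hb.b₂.zero_mul hxQ.pow_two.ge
      exact this.gt (by linarith)
    have g2 : v.Gt (3 * d) (2 * κ.b₄ * κ.N Q) := by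
      have := ((ge_ofNat (v := v) 2).zero_mul hb.b₄).zero_mul hxQ.ge
      exact this.gt (by linarith)
    have g3 : v.Gt (3 * d) κ.b₆ := hb.b₆.gt (by linarith)
    rw [KummerLine.psi]
    exact ((g0.add_gt g1).add_gt g2).add_gt g3
  have f3 : v.Eq (3 * d / 2) (eta Q) := by
    have h0 : eta Q ≠ 0 := by
      intro h0
      rw [h0] at f1
      exact hpsiQ.ne (by rw [← f1]; ring)
    refine ⟨h0, ?_⟩
    have := hpsiQ.2
    rw [← f1, ord_pow h0] at this
    push_cast at this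
    linarith
  have hRE : ¬ κ.InE1 v R := by
    rw [KummerLine.inE1_iff hR0, not_not]
    exact t.int R hR hR0
  have hne1 : R ≠ Q := by rintro rfl; exact hRE hQE
  have hne2 : R ≠ -Q := by
    rintro rfl
    exact hRE (KummerLine.inE1_neg hQE)
  have hrel := eta_rel_translate hκ hR0 hQ0 hne1 hne2
  have hsub : v.Eq d (κ.N R - κ.N Q) := by
    have h3 : v.Gt d (-κ.N R) := (hx.ge.gt (by linarith)).neg
    have h4 := (hxQ.add_gt h3).neg
    have e : -(κ.N Q + -κ.N R) = κ.N R - κ.N Q := by ring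
    rwa [e] at h4
  have hprod := e3.mul f3
  rw [← hrel, mul_comm (κ.N (R - Q) - κ.N (R + Q))] at hprod
  have hfin := hprod.of_mul_eq hsub.pow_two
  refine ⟨2 * k₀ * j, by rw [← hcomp]; exact hx, ?_⟩
  rw [← hcomp]
  convert hfin using 1
  ring

end Gen

variable {P : FreyPackage} {K : Type*} [Field K] [DecidableEq K] [Algebra ℚ K]
  [Algebra.IsAlgebraic ℚ K] [CharZero K] {A : ValuationSubring K}

/-- multiplicative reduction -/
theorem frey_multAt (hA : ((P.p : ℕ) : K) ∈ A.nonunits) (habc : (P.p : ℤ) ∣ P.a * P.b * P.c) :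
    ∃ (r : ℚ) (k₀ : ℤ), (ordFnAt A P.pp hA).Ge 0 (algebraMap ℚ K r) ∧
      ((kum P (K := K)).translate (algebraMap ℚ K r)).MultAt (ordFnAt A P.pp hA) (P.p * k₀) := by
  set v := ordFnAt A P.pp hA with hv
  have h2 : v.Eq 0 (2 : K) := two_unit hA
  have hu : ∀ n : ℤ, ¬ (P.p : ℤ) ∣ n → v.Eq 0 (n : K) := fun n hn =>
    eq_zero_of_not_dvd (A := A) P.pp hA hn
  have hd : ∀ n : ℤ, (P.p : ℤ) ∣ n → v.Gt 0 (n : K) := fun n hn =>
    gt_zero_of_dvd (A := A) P.pp hA hn
  have hqI : Prime (P.p : ℤ) := Nat.prime_iff_prime_int.mp P.pp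
  have hp0 := P.hp0
  have cop : ∀ {x y : ℤ}, gcd x y = 1 → (P.p : ℤ) ∣ x → ¬ (P.p : ℤ) ∣ y := by
    intro x y hxy hx hy
    have := dvd_gcd hx hy
    rw [hxy] at this
    exact hqI.not_isUnit (isUnit_of_dvd_one this)
  have hint : ∀ {x y : ℤ}, gcd x y = 1 → (P.p : ℤ) ∣ x →
      v.Eq 0 ((y : K) ^ P.p - (x : K) ^ P.p) := by
    intro x y hxy hx
    have h1 := hu (y ^ P.p - x ^ P.p) (by
      intro h
      have h3 : (P.p : ℤ) ∣ y ^ P.p := by
        have := dvd_add h (dvd_pow hx hp0)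
        simpa using this
      exact cop hxy hx (hqI.dvd_of_dvd_pow h3))
    simpa using h1
  have hne : ∀ {x : ℤ}, x ≠ 0 → (x : K) ≠ 0 := fun h => by exact_mod_cast h
  have main : ∀ (r : ℚ) (x y : ℤ) (ε : K), v.Eq 0 ε → x ≠ 0 → y ≠ 0 → (P.p : ℤ) ∣ x * y →
      v.Ge 0 (algebraMap ℚ K r) →
      v.Eq 0 ((kum P (K := K)).translate (algebraMap ℚ K r)).b₂ →
      ((kum P (K := K)).translate (algebraMap ℚ K r)).b₄ = ε * ((x : K) * y) ^ P.p / 8 →
      ((kum P (K := K)).translate (algebraMap ℚ K r)).b₆ = 0 →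
      ((kum P (K := K)).translate (algebraMap ℚ K r)).b₈ = -(((x : K) * y) ^ P.p) ^ 2 / 256 →
      ∃ (r : ℚ) (k₀ : ℤ), v.Ge 0 (algebraMap ℚ K r) ∧
        ((kum P (K := K)).translate (algebraMap ℚ K r)).MultAt v (P.p * k₀) := by
    intro r x y ε hε hx hy hxy hr hb₂ hb₄ hb₆ hb₈
    have hg : v.Gt 0 ((x : K) * y) := by
      have := hd _ hxy
      push_cast at this
      exact this
    have hM := multAt_of (κ := (kum P (K := K)).translate (algebraMap ℚ K r)) h2 hε P.p hp0 hg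
      (mul_ne_zero (hne hx) (hne hy)) hb₂ hb₄ hb₆ hb₈
    obtain ⟨k₀, hk₀⟩ := ordAt_rat A P.pp hA (r := ((x * y : ℤ) : ℚ)) (by
      exact_mod_cast mul_ne_zero hx hy)
    have hk₀' : v.ord ((x : K) * y) = k₀ := by
      rw [← hk₀]
      congr 1
      simp
    rw [hk₀'] at hM
    exact ⟨r, k₀, hr, hM⟩
  have alg4 : (algebraMap ℚ K (((P.a : ℚ)) ^ P.p / 4)) = (P.a : K) ^ P.p / 4 := by simp
  have h4inv : v.Eq 0 ((4 : K)⁻¹) := by
    have := (h2.pow 2).inv
    norm_num at this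
    simpa using this
  by_cases hc : (P.p : ℤ) ∣ P.c
  · have hca : gcd P.c P.a = 1 := by rw [gcd_comm]; exact P.hgcdac
    refine main (((P.a : ℚ)) ^ P.p / 4) P.a P.c 1 eq_one P.ha0 P.hc0 (dvd_mul_of_dvd_right hc _)
      ?_ ?_ ?_ ?_ ?_
    · rw [alg4, div_eq_mul_inv]
      have := (ge_intCast (v := v) (P.a ^ P.p)).mul h4inv.ge
      push_cast at this
      simpa using this
    · rw [alg4, trans_b₂]
      have h1 := hu (P.a ^ P.p + P.c ^ P.p) (by
        intro h
        have h3 : (P.p : ℤ) ∣ P.a ^ P.p := by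
          have := dvd_sub h (dvd_pow hc hp0)
          simpa using this
        exact cop hca hc (hqI.dvd_of_dvd_pow h3))
      simpa using h1
    · rw [alg4, trans_b₄, one_mul]
    · rw [alg4, trans_b₆]
    · rw [alg4, trans_b₈]
  have hab : (P.p : ℤ) ∣ P.a * P.b := (hqI.dvd_or_dvd habc).resolve_right hc
  have ht : (kum P (K := K)).translate (algebraMap ℚ K 0) = kum P (K := K) := by
    simp [KummerLine.translate]
  refine main 0 P.a P.b (-1) eq_one.neg P.ha0 P.hb0 hab ?_ ?_ ?_ ?_ ?_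
  · rw [_root_.map_zero]; exact Ge.zero
  · rw [ht, kum_b₂]
    rcases hqI.dvd_or_dvd hab with h | h
    · exact hint P.hgcdab h
    · have := hint (x := P.b) (y := P.a) (by rw [gcd_comm]; exact P.hgcdab) h
      have := this.neg
      rw [neg_sub] at this
      exact this
  · rw [ht, kum_b₄]; ring
  · rw [ht, kum_b₆]
  · rw [ht, kum_b₈]

/-- at a multiplicative place above `p` -/
theorem frey_diff (hA : ((P.p : ℕ) : K) ∈ A.nonunits) (habc : (P.p : ℤ) ∣ P.a * P.b * P.c)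
    {R : ((P.freyCurve : Affine ℚ)⁄K).Point} (hR : P.p • R = 0)
    (hRE : ¬ (kum P (K := K)).InE1 (ordFnAt A P.pp hA) R)
    {Q : ((P.freyCurve : Affine ℚ)⁄K).Point} (hQ0 : Q ≠ 0)
    (hQE : (kum P (K := K)).InE1 (ordFnAt A P.pp hA) Q) :
    ∃ (r : ℚ) (c : ℤ), (ordFnAt A P.pp hA).Eq c
        (((kum P (K := K)).translate (algebraMap ℚ K r)).N R) ∧
      (ordFnAt A P.pp hA).Eq (c - (ordFnAt A P.pp hA).ord (xN Q) / 2)
        (((kum P (K := K)).translate (algebraMap ℚ K r)).N (R - Q) -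
          ((kum P (K := K)).translate (algebraMap ℚ K r)).N (R + Q)) := by
  set v := ordFnAt A P.pp hA with hv
  obtain ⟨r, k₀, hr, hM⟩ := frey_multAt hA habc
  have h2 : v.Eq 0 (2 : K) := two_unit hA
  have hQi := (KummerLine.inE1_iff hQ0).mp hQE
  have hQi' : ¬ v.Ge 0 (xN Q) := hQi
  rw [not_ge_iff] at hQi'
  have hE' : ¬ ((kum P (K := K)).translate (algebraMap ℚ K r)).InE1 v R := by
    rwa [KummerLine.inE1_translate hr]
  have t := tors_zmultiples hM.integral P.pp P.hp_odd hR hE'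
  have hR0 : R ≠ 0 := (KummerLine.not_inE1 hRE).1
  obtain ⟨c, hc1, hc2⟩ := diff_ord (κ := (kum P (K := K)).translate (algebraMap ℚ K r)) rfl h2
    hM t (k₀ := k₀) rfl (AddSubgroup.mem_zmultiples R) hR0 hQ0
    ((KummerLine.inE1_translate hr).mpr hQE)
  refine ⟨r, c, hc1, ?_⟩
  have e : ((kum P (K := K)).translate (algebraMap ℚ K r)).N Q = xN Q - algebraMap ℚ K r := by
    simp only [KummerLine.translate]
    rw [(kum P (K := K)).D_ne Q hQ0, mul_one]
    rfl
  have e2 : v.Eq (v.ord (xN Q)) (xN Q - algebraMap ℚ K r) :=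
    (OrdFn.eq_self hQi'.1).sub_gt (hr.gt hQi'.2)
  rw [e, e2.2] at hc2
  exact hc2

end Fermat.Agent.FU
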