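import Fermat.Agent.FU.MultD

set_option autoImplicit false
set_option linter.unusedSectionVars false

/-! # Not all `p`-torsion points are in the kernel of reduction (multiplicative case) -/

namespace Fermat.Agent.FU

open Fermat.Agent.ECRed Fermat.Agent.ECRed.Frey OrdFn Polynomial WeierstrassCurve
  WeierstrassCurve.Affine WeierstrassCurve.Affine.Point
open scoped Pointwise

/-- division polynomials vanish at a node -/
theorem preΨ_node {R : Type*} [CommRing R] (W : WeierstrassCurve R) {x : R}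
    (h3 : W.Ψ₃.eval x = 0) (h4 : W.preΨ₄.eval x = 0) :
    ∀ n : ℕ, 3 ≤ n → (W.preΨ' n).eval x = 0 := by
  intro n
  induction n using Nat.strong_induction_on with
  | _ n ih =>
    intro hn
    rcases Nat.lt_or_ge n 5 with h | h
    · have : n = 3 ∨ n = 4 := by omega
      rcases this with rfl | rfl
      · rw [preΨ'_three]; exact h3
      · rw [preΨ'_four]; exact h4
    · rcases Nat.even_or_odd' n with ⟨m, rfl | rfl⟩
      · obtain ⟨k, rfl⟩ : ∃ k, m = k + 3 := ⟨m - 3, by omega⟩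
        rw [preΨ'_even]
        simp only [eval_sub, eval_mul, eval_pow, ih (k + 3) (by omega) (by omega)]
        ring
      · obtain ⟨k, rfl⟩ : ∃ k, m = k + 2 := ⟨m - 2, by omega⟩
        rw [preΨ'_odd]
        simp only [eval_sub, eval_mul, eval_pow, ih (k + 3) (by omega) (by omega),
          ih (k + 4) (by omega) (by omega)]
        ring

lemma eval_Ψ₃ {R : Type*} [CommRing R] (W : WeierstrassCurve R) (r : R) :
    W.Ψ₃.eval r = W.b₈ + 3 * r * W.b₆ + 3 * r ^ 2 * W.b₄ + r ^ 3 * W.b₂ + 3 * r ^ 4 := by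
  rw [Ψ₃]
  simp only [eval_add, eval_mul, eval_pow, eval_X, eval_C, eval_ofNat]
  ring

lemma eval_preΨ₄ {R : Type*} [CommRing R] (W : WeierstrassCurve R) (r : R) :
    W.preΨ₄.eval r = (W.b₄ + r * W.b₂ + 6 * r ^ 2) *
      (W.b₈ + 3 * r * W.b₆ + 3 * r ^ 2 * W.b₄ + r ^ 3 * W.b₂ + 3 * r ^ 4) -
      (W.b₆ + 2 * r * W.b₄ + r ^ 2 * W.b₂ + 4 * r ^ 3) ^ 2 := by
  rw [preΨ₄]
  simp only [eval_add, eval_mul, eval_pow, eval_X, eval_C, eval_ofNat]
  linear_combination (r ^ 2) * W.b_relation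

section Bound

variable {K : Type*} [Field K] [DecidableEq K] [Algebra ℚ K] [Algebra.IsAlgebraic ℚ K]
  [IsAlgClosed K] (A : ValuationSubring K) {p : ℕ}

theorem not_all (hp : p.Prime) (hodd : Odd p) (hA : (p : K) ∈ A.nonunits) (W : Affine ℚ)
    (hc : IntCoeff W (ordFnAt A hp hA)) (hΔ : (W⁄K).Δ ≠ 0)
    (hT : ∃ x y : K, (ordFnAt A hp hA).Ge 0 x ∧ (ordFnAt A hp hA).Ge 0 y ∧
      (W⁄K).Equation x y ∧ 2 * y + (W⁄K).a₁ * x + (W⁄K).a₃ = 0 ∧
      (ordFnAt A hp hA).Eq 0 (3 * x ^ 2 + 2 * (W⁄K).a₂ * x + (W⁄K).a₄ - (W⁄K).a₁ * y))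
    {r : K} (hr : (ordFnAt A hp hA).Ge 0 r) (hr3 : (ordFnAt A hp hA).Gt 0 ((W⁄K).Ψ₃.eval r))
    (hr4 : (ordFnAt A hp hA).Gt 0 ((W⁄K).preΨ₄.eval r)) :
    ∃ Q : (W⁄K).Point, Q ≠ 0 ∧ p • Q = 0 ∧
      ¬ (KummerLine.ofCurve (W⁄K)).InE1 (ordFnAt A hp hA) Q := by
  classical
  set v := ordFnAt A hp hA with hv
  have hcz := charZero_of_alg K
  have hmem : ∀ x, v.Ge 0 x → x ∈ A := fun x hx => (ordFnAt_ge A hp hA x).mp hx
  set WA := modelA A W hc hmem with hWA
  have hmap : WA.map A.subtype = (W⁄K) := rfl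
  set f := (W⁄K).preΨ' p with hf
  have hfA : f = (WA.preΨ' p).map A.subtype := by
    rw [hf, ← hmap, map_preΨ']
  have hpK : (p : K) ≠ 0 := by exact_mod_cast hp.ne_zero
  have hf0 : f ≠ 0 := (W⁄K).preΨ'_ne_zero hpK
  have hlc : f.leadingCoeff = p := by
    have := leadingCoeff_preΨ' (W⁄K) hpK
    rw [if_neg (Nat.not_even_iff_odd.mpr hodd)] at this
    exact this
  obtain ⟨x, y, hx, hy, hE, h2, h3⟩ := hT
  have hns : (W⁄K).Nonsingular x y := (equation_iff_nonsingular_of_Δ_ne_zero hΔ).mp hE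
  -- the value at `x` is a unit
  have hval : v.Eq 0 (f.eval x) := by
    set xA : A := ⟨x, hmem x hx⟩ with hxA
    set yA : A := ⟨y, hmem y hy⟩ with hyA
    have hEA : WA.toAffine.Equation xA yA := by
      rw [Affine.equation_iff] at hE ⊢
      exact Subtype.ext hE
    have h2A : 2 * yA + WA.a₁ * xA + WA.a₃ = 0 := Subtype.ext h2
    have h3A : IsUnit (3 * xA ^ 2 + 2 * WA.a₂ * xA + WA.a₄ - WA.a₁ * yA) := by
      rw [ValuationSubring.valuation_eq_one_iff]
      have e : ((3 * xA ^ 2 + 2 * WA.a₂ * xA + WA.a₄ - WA.a₁ * yA : A) : K) =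
          3 * x ^ 2 + 2 * (W⁄K).a₂ * x + (W⁄K).a₄ - (W⁄K).a₁ * y := rfl
      rw [e]
      have h4 : ¬ v.Gt 0 (3 * x ^ 2 + 2 * (W⁄K).a₂ * x + (W⁄K).a₄ - (W⁄K).a₁ * y) := h3.not_gt
      rw [hv, ordFnAt_gt, ValuationSubring.mem_nonunits_iff, not_lt] at h4
      refine le_antisymm ?_ h4
      rw [ValuationSubring.valuation_le_one_iff]
      exact hmem _ h3.ge
    have hi := eval_preΨ_unit A WA hEA h2A h3A hodd
    have e2 : f.eval x = (((WA.preΨ' p).eval xA : A) : K) := by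
      rw [hfA, eval_map]
      exact (Polynomial.hom_eval₂ (WA.preΨ' p) (RingHom.id A) A.subtype xA).symm
    rw [ValuationSubring.valuation_eq_one_iff] at hi
    rw [e2]
    have h5 : v.Ge 0 (((WA.preΨ' p).eval xA : A) : K) :=
      (ordFnAt_ge A hp hA _).mpr (Subtype.mem _)
    have h6 : ¬ v.Gt 0 (((WA.preΨ' p).eval xA : A) : K) := by
      rw [hv, ordFnAt_gt, ValuationSubring.mem_nonunits_iff, hi]
      exact lt_irrefl _
    rw [not_gt_iff] at h6
    exact ⟨h6.1, le_antisymm h6.2 ((ge_iff h6.1).mp h5)⟩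
  -- the value at `r` is not a unit
  have hvalr : v.Gt 0 (f.eval r) := by
    set rA : A := ⟨r, hmem r hr⟩ with hrA
    have hres : ∀ g : A[X], (ordFnAt A hp hA).Gt 0 ((g.map A.subtype).eval r) →
        IsLocalRing.residue A (g.eval rA) = 0 := by
      intro g hg
      have e2 : (g.map A.subtype).eval r = ((g.eval rA : A) : K) := by
        rw [eval_map]
        exact (Polynomial.hom_eval₂ g (RingHom.id A) A.subtype rA).symm
      rw [e2, ordFnAt_gt, ValuationSubring.mem_nonunits_iff] at hg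
      rw [IsLocalRing.residue_eq_zero_iff]
      exact (A.valuation_lt_one_iff _).mpr hg
    have h3r : (WA.map (IsLocalRing.residue A)).Ψ₃.eval (IsLocalRing.residue A rA) = 0 := by
      rw [map_Ψ₃, eval_map, Polynomial.eval₂_hom]
      apply hres
      rw [← map_Ψ₃]; exact hr3
    have h4r : (WA.map (IsLocalRing.residue A)).preΨ₄.eval (IsLocalRing.residue A rA) = 0 := by
      rw [map_preΨ₄, eval_map, Polynomial.eval₂_hom]
      apply hres
      rw [← map_preΨ₄]; exact hr4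
    have hp3 : 3 ≤ p := by
      have h2 := hp.two_le
      obtain ⟨k, hk⟩ := hodd
      omega
    have h5 := preΨ_node _ h3r h4r p hp3
    rw [map_preΨ', eval_map, Polynomial.eval₂_hom, IsLocalRing.residue_eq_zero_iff] at h5
    have e2 : f.eval r = (((WA.preΨ' p).eval rA : A) : K) := by
      rw [hfA, eval_map]
      exact (Polynomial.hom_eval₂ (WA.preΨ' p) (RingHom.id A) A.subtype rA).symm
    rw [e2, hv, ordFnAt_gt, ValuationSubring.mem_nonunits_iff]
    exact (A.valuation_lt_one_iff _).mp h5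
  by_contra hall
  push Not at hall
  -- the factorisation
  have hsplit := (IsAlgClosed.splits f).eq_prod_roots
  have hev : ∀ x, f.eval x = (p : K) * (f.roots.map (fun a => x - a)).prod := by
    intro x
    conv_lhs => rw [hsplit]
    rw [eval_mul, eval_C, hlc, eval_multiset_prod, Multiset.map_map]
    congr 2
    apply Multiset.map_congr rfl
    intro a _
    simp
  have hroot : ∀ a ∈ f.roots, ¬ v.Ge 0 a := by
    intro a ha
    obtain ⟨R, hR0, hRx⟩ := DivPoly.exists_point (W := (W⁄K)) hΔ a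
    have hRp : p • R = 0 := by
      rw [DivPoly.nsmul_eq_zero_iff_odd hR0 hodd, hRx]
      exact (mem_roots hf0).mp ha
    have h1 := (KummerLine.inE1_iff hR0).mp (hall R hR0 hRp)
    rw [← hRx]
    exact h1
  have hsub : ∀ x, v.Ge 0 x → ∀ a ∈ f.roots, v.Eq (v.ord a) (x - a) := by
    intro x hx a ha
    have h1 := hroot a ha
    rw [not_ge_iff] at h1
    have h3 : v.Gt (v.ord a) (-x) := (hx.gt h1.2).neg
    have h4 := ((OrdFn.eq_self h1.1).add_gt h3).neg
    have e : -(a + -x) = x - a := by ring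
    rwa [e] at h4
  have hord : ∀ x, v.Ge 0 x → f.eval x ≠ 0 ∧
      v.ord (f.eval x) = 1 + (f.roots.map v.ord).sum := by
    intro x hx
    have hne : ∀ b ∈ f.roots.map (fun a => x - a), b ≠ 0 := by
      intro b hb
      obtain ⟨a, ha, rfl⟩ := Multiset.mem_map.mp hb
      exact (hsub x hx a ha).1
    obtain ⟨h1, h2⟩ := ord_multiset_prod (v := v) _ hne
    rw [hev]
    refine ⟨mul_ne_zero hpK h1, ?_⟩
    rw [ord_mul hpK h1, (ordAt_q A hp hA).2, h2, Multiset.map_map]
    congr 2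
    apply Multiset.map_congr rfl
    intro a ha
    exact (hsub x hx a ha).2
  obtain ⟨h4, h5⟩ := hord x hx
  obtain ⟨h6, h7⟩ := hord r hr
  have h8 := hval.2
  have h9 := (gt_iff h6).mp hvalr
  rw [h5] at h8
  rw [h7] at h9
  linarith

end Bound

variable {P : FreyPackage} {K : Type*} [Field K] [DecidableEq K] [Algebra ℚ K]
  [Algebra.IsAlgebraic ℚ K] [CharZero K] [IsAlgClosed K] {A : ValuationSubring K}

theorem frey_not_all (hA : ((P.p : ℕ) : K) ∈ A.nonunits) (habc : (P.p : ℤ) ∣ P.a * P.b * P.c) :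
    ∃ Q : ((P.freyCurve : Affine ℚ)⁄K).Point, Q ≠ 0 ∧ P.p • Q = 0 ∧
      ¬ (kum P (K := K)).InE1 (ordFnAt A P.pp hA) Q := by
  obtain ⟨r, k₀, hr, hM⟩ := frey_multAt hA habc
  have hpos := hM.pos
  have h8 : (ordFnAt A P.pp hA).Gt 0
      ((kum P (K := K)).translate (algebraMap ℚ K r)).b₈ := hM.b₈.ge.gt (by linarith)
  have h6 : (ordFnAt A P.pp hA).Gt 0
      ((kum P (K := K)).translate (algebraMap ℚ K r)).b₆ := hM.b₆.gt (by linarith)
  refine not_all A P.pp P.hp_odd hA (P.freyCurve : Affine ℚ) (intCoeff_p hA) frey_Δ_ne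
    (frey_hT hA) hr ?_ ?_
  · rw [eval_Ψ₃]
    exact h8
  · rw [eval_preΨ₄]
    have h9 := (hM.integral.b₄.zero_mul_gt h8).sub (h6.ge.zero_mul_gt h6)
    rw [← pow_two (((kum P (K := K)).translate (algebraMap ℚ K r)).b₆)] at h9
    exact h9

end Fermat.Agent.FU
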